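/-
helper83: Boston–Lenstra–Ribet over a field (corollary of `Flat83/CarayolBLR`).

`k` a field with `2 ≠ 0`, `V` a two-dimensional representation of `G` whose image spans `End_k V`
(absolutely irreducible), `X ≠ 0` a finite-dimensional `k[G]`-module on which every `g` satisfies the
Cayley–Hamilton relation of `ρV g`:  `g + det (ρV g) g⁻¹ = tr (ρV g)`  (e.g. `X = J[𝔪]` with the
Eichler–Shimura relation).  Then `V` embeds `G`-equivariantly into `X`.
-/
import Mathlib
import Fermat.Agent.Flat83.CarayolBLR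

set_option autoImplicit false
set_option linter.unusedSectionVars false

noncomputable section

namespace Fermat.Agent.Flat83.BLRField

open Module

variable {k : Type*} [Field k] {G : Type*} [Group G]
  {V : Type*} [AddCommGroup V] [Module k V] [Module.Finite k V]
  {X : Type*} [AddCommGroup X] [Module k X] [Module.Finite k X]

/-- a subspace stable under a spanning set of endomorphisms is `⊥` or contains any given vector. -/
theorem mem_of_stable_of_span {S : Set (End k V)} (hS : Submodule.span k S = ⊤)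
    (K : Submodule k V) (hK : ∀ E ∈ S, ∀ v ∈ K, E v ∈ K) {w : V} (hw : w ∈ K) (hw0 : w ≠ 0)
    (v0 : V) : v0 ∈ K := by
  -- `K` is stable under all endomorphisms
  have hall : ∀ E : End k V, ∀ v ∈ K, E v ∈ K := by
    intro E
    have hE : E ∈ Submodule.span k S := by rw [hS]; exact Submodule.mem_top
    refine Submodule.span_induction (p := fun E _ => ∀ v ∈ K, E v ∈ K) ?_ ?_ ?_ ?_ hE
    · exact fun E hE => hK E hE
    · intro v _
      rw [LinearMap.zero_apply]
      exact K.zero_mem
    · intro E F _ _ hE hF v hv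
      rw [LinearMap.add_apply]
      exact K.add_mem (hE v hv) (hF v hv)
    · intro c E _ hE v hv
      rw [LinearMap.smul_apply]
      exact K.smul_mem c (hE v hv)
  obtain ⟨φ, hφ⟩ : ∃ φ : Module.Dual k V, φ w ≠ 0 := by
    by_contra h
    have h' : ∀ φ : Module.Dual k V, φ w = 0 := by
      intro φ
      by_contra hne
      exact h ⟨φ, hne⟩
    exact hw0 ((Module.forall_dual_apply_eq_zero_iff k w).mp h')
  have := hall (φ.smulRight ((φ w)⁻¹ • v0)) w hw
  rwa [LinearMap.smulRight_apply, smul_smul, mul_inv_cancel₀ hφ, one_smul] at this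

/-- **Boston–Lenstra–Ribet over a field**: `V ↪ X` equivariantly. -/
theorem exists_injective_equivariant [Nontrivial X]
    (ρV : G →* End k V) (ρX : G →* End k X)
    (hrel : ∀ g, ρX g + LinearMap.det (ρV g) • ρX g⁻¹ =
      LinearMap.trace k V (ρV g) • (1 : End k X))
    (h2 : Module.finrank k V = 2) (htwo : (2 : k) ≠ 0)
    (hspan : Submodule.span k (Set.range ρV) = ⊤) :
    ∃ f : V →ₗ[k] X, Function.Injective f ∧ ∀ (g : G) (v : V), f (ρV g v) = ρX g (f v) := by
  classical
  have hfaith : ∀ c : k, (∀ x : X, c • x = 0) → c = 0 := by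
    intro c hc
    obtain ⟨x, hx⟩ := exists_ne (0 : X)
    exact (smul_eq_zero.mp (hc x)).resolve_right hx
  obtain ⟨r, Ψ, hinj, heq⟩ := Fermat.Agent.Flat83.CarayolBLR.exists_injective_equivariant
    ρV ρX hrel h2 (IsUnit.mk0 2 htwo) hspan hfaith
  -- a nonzero vector of `V`
  have : Nontrivial V := Module.nontrivial_of_finrank_pos (R := k) (by rw [h2]; norm_num)
  obtain ⟨v0, hv0⟩ := exists_ne (0 : V)
  have hΨv0 : Ψ v0 ≠ 0 := fun h => hv0 (hinj (by rw [h, map_zero]))
  obtain ⟨i, hi⟩ : ∃ i, Ψ v0 i ≠ 0 := by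
    by_contra h
    apply hΨv0
    funext i
    by_contra hne
    exact h ⟨i, hne⟩
  let f : V →ₗ[k] X := (LinearMap.proj i).comp Ψ
  have hf : ∀ v, f v = Ψ v i := fun v => rfl
  have hfeq : ∀ (g : G) (v : V), f (ρV g v) = ρX g (f v) := fun g v => by rw [hf, hf, heq]
  refine ⟨f, ?_, hfeq⟩
  rw [← LinearMap.ker_eq_bot, Submodule.eq_bot_iff]
  intro w hw
  by_contra hw0
  have hstab : ∀ E ∈ Set.range ρV, ∀ v ∈ LinearMap.ker f, E v ∈ LinearMap.ker f := by
    rintro _ ⟨g, rfl⟩ v hv
    rw [LinearMap.mem_ker] at hv ⊢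
    rw [hfeq, hv, map_zero]
  have := mem_of_stable_of_span hspan (LinearMap.ker f) hstab hw hw0 v0
  rw [LinearMap.mem_ker, hf] at this
  exact hi this

end Fermat.Agent.Flat83.BLRField
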