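/-
S32 conditional programme, part (A1) (helper83): a cheap form of the theorem of Carayol /
Boston–Lenstra–Ribet.

`T` a commutative ring in which `2` is a unit, `V` a free `T`-module of rank two with an action
`ρV : G →* End_T V` whose image spans `End_T V` (e.g. residually absolutely irreducible over a local
ring: Burnside + Nakayama).  Let `X` be any `T`-module with an action `ρX : G →* End_T X` satisfying
the Cayley–Hamilton relation of `ρV`:

  `ρX g + det (ρV g) • ρX g⁻¹ = trace (ρV g) • 1`   for all `g`.

Then every element of the group algebra `T[G]` which acts as `0` on `V` acts as `0` on `X`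
(`lift_eq_zero_of_lift_eq_zero`); hence there is a `T`-algebra homomorphism
`Θ : End_T V → End_T X` with `Θ (ρV g) = ρX g` (`exists_algHom`), and if `X` is a faithful finitely
generated `T`-module there is an injective, `G`-equivariant `T`-linear map `V → X ^ r`
(`exists_injective_equivariant`).

Mathlib only.
-/
import Mathlib

set_option autoImplicit false
set_option linter.unusedSectionVars false

noncomputable section

namespace Fermat.Agent.Flat83.CarayolBLR

open Module MonoidAlgebra

variable {T : Type*} [CommRing T] {G : Type*} [Group G]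
  {V : Type*} [AddCommGroup V] [Module T V] [Module.Free T V] [Module.Finite T V]
  {X : Type*} [AddCommGroup X] [Module T X]
  (ρV : G →* End T V) (ρX : G →* End T X)

/-! ### Cayley–Hamilton in rank two -/

theorem matrix_sq_eq (A : Matrix (Fin 2) (Fin 2) T) :
    A * A = A.trace • A - A.det • (1 : Matrix (Fin 2) (Fin 2) T) := by
  ext i j
  fin_cases i <;> fin_cases j <;>
    simp [Matrix.mul_apply, Fin.sum_univ_two, Matrix.trace_fin_two, Matrix.det_fin_two] <;> ring

theorem end_sq_eq (h2 : Module.finrank T V = 2) (f : End T V) :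
    f * f = LinearMap.trace T V f • f - LinearMap.det f • (1 : End T V) := by
  classical
  rcases subsingleton_or_nontrivial T with hT | hT
  · have : Subsingleton V := Module.subsingleton T V
    exact Subsingleton.elim _ _
  let b : Basis (Fin 2) T V := Module.finBasisOfFinrankEq T V h2
  apply (LinearMap.toMatrixAlgEquiv b).injective
  have h := matrix_sq_eq (LinearMap.toMatrixAlgEquiv b f)
  have htr : (LinearMap.toMatrixAlgEquiv b f).trace = LinearMap.trace T V f := by
    rw [LinearMap.trace_eq_matrix_trace T b f]; rfl
  have hdet : (LinearMap.toMatrixAlgEquiv b f).det = LinearMap.det f := by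
    rw [← LinearMap.det_toMatrix b f]; rfl
  rw [map_mul, h, htr, hdet, map_sub, map_smul, map_smul, map_one]

theorem end_add_det_smul_inv (h2 : Module.finrank T V = 2) (f f' : End T V) (hff' : f * f' = 1) :
    f + LinearMap.det f • f' = LinearMap.trace T V f • (1 : End T V) := by
  have h := congrArg (· * f') (end_sq_eq h2 f)
  simp only [mul_assoc, hff', mul_one, sub_mul, smul_mul_assoc, one_mul] at h
  rw [eq_sub_iff_add_eq] at h
  exact h

/-! ### The group algebra and its involution -/

/-- the determinant character. -/
def detChar : G →* T := (LinearMap.det : End T V →* T).comp ρV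

theorem detChar_apply (g : G) : detChar ρV g = LinearMap.det (ρV g) := rfl

/-- `g ↦ op (det (ρV g) • g⁻¹)` as a monoid hom into the opposite of the group algebra. -/
def starMonoidHom : G →* (MonoidAlgebra T G)ᵐᵒᵖ where
  toFun g := MulOpposite.op (detChar ρV g • of T G g⁻¹)
  map_one' := by
    rw [map_one, inv_one, map_one, one_smul, MulOpposite.op_one]
  map_mul' g h := by
    rw [← MulOpposite.op_mul, map_mul, mul_inv_rev, map_mul, smul_mul_smul_comm, mul_comm]

/-- the anti-involution `g ↦ det (ρV g) • g⁻¹` of the group algebra. -/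
def starHom : MonoidAlgebra T G →ₐ[T] (MonoidAlgebra T G)ᵐᵒᵖ :=
  MonoidAlgebra.lift T _ G (starMonoidHom ρV)

/-- `a ↦ a*`. -/
def star (a : MonoidAlgebra T G) : MonoidAlgebra T G := MulOpposite.unop (starHom ρV a)

theorem star_of (g : G) : star ρV (of T G g) = detChar ρV g • of T G g⁻¹ := by
  unfold star starHom
  rw [MonoidAlgebra.lift_of]
  rfl

theorem star_mul (a b : MonoidAlgebra T G) : star ρV (a * b) = star ρV b * star ρV a := by
  unfold star
  rw [map_mul, MulOpposite.unop_mul]

theorem star_add (a b : MonoidAlgebra T G) : star ρV (a + b) = star ρV a + star ρV b := by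
  unfold star
  rw [map_add, MulOpposite.unop_add]

theorem star_smul (c : T) (a : MonoidAlgebra T G) : star ρV (c • a) = c • star ρV a := by
  unfold star
  rw [map_smul, MulOpposite.unop_smul]

/-- the action of the group algebra on `V`. -/
def actV : MonoidAlgebra T G →ₐ[T] End T V := MonoidAlgebra.lift T _ G ρV

/-- the action of the group algebra on `X`. -/
def actX : MonoidAlgebra T G →ₐ[T] End T X := MonoidAlgebra.lift T _ G ρX

theorem actV_of (g : G) : actV ρV (of T G g) = ρV g := MonoidAlgebra.lift_of _ _

theorem actX_of (g : G) : actX ρX (of T G g) = ρX g := MonoidAlgebra.lift_of _ _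

theorem rho_mul_inv (g : G) : ρV g * ρV g⁻¹ = 1 := by rw [← map_mul, mul_inv_cancel, map_one]

/-- On `V`: `a + a* = trace a`. -/
theorem actV_add_star (h2 : Module.finrank T V = 2) (a : MonoidAlgebra T G) :
    actV ρV a + actV ρV (star ρV a) = LinearMap.trace T V (actV ρV a) • (1 : End T V) := by
  induction a using MonoidAlgebra.induction_on with
  | of g =>
    rw [star_of, map_smul, actV_of, actV_of, detChar_apply]
    exact end_add_det_smul_inv h2 _ _ (rho_mul_inv ρV g)
  | add a b ha hb =>
    rw [star_add, map_add, map_add, map_add, add_smul, ← ha, ← hb]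
    abel
  | smul c a ha =>
    rw [star_smul, map_smul, map_smul, map_smul, smul_assoc, ← ha, smul_add]

variable (hrel : ∀ g, ρX g + LinearMap.det (ρV g) • ρX g⁻¹ =
  LinearMap.trace T V (ρV g) • (1 : End T X))

include hrel in
/-- On `X`: `a + a* = trace_V a`. -/
theorem actX_add_star (a : MonoidAlgebra T G) :
    actX ρX a + actX ρX (star ρV a) = LinearMap.trace T V (actV ρV a) • (1 : End T X) := by
  induction a using MonoidAlgebra.induction_on with
  | of g =>
    rw [star_of, map_smul, actX_of, actX_of, detChar_apply, actV_of]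
    exact hrel g
  | add a b ha hb =>
    rw [star_add, map_add, map_add, map_add, map_add, add_smul, ← ha, ← hb]
    abel
  | smul c a ha =>
    rw [star_smul, map_smul, map_smul, map_smul, map_smul, smul_assoc, ← ha, smul_add]

/-- the kernel of the action on `V` is stable under the involution. -/
theorem actV_star_eq_zero (h2 : Module.finrank T V = 2) {a : MonoidAlgebra T G}
    (ha : actV ρV a = 0) : actV ρV (star ρV a) = 0 := by
  have h := actV_add_star ρV h2 a
  rw [ha, map_zero, zero_smul, zero_add] at h
  exact h

include hrel in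
/-- for `w` in the kernel, `w* = -w` on `X`. -/
theorem actX_star_of_ker {w : MonoidAlgebra T G} (hw : actV ρV w = 0) :
    actX ρX (star ρV w) = - actX ρX w := by
  have h := actX_add_star ρV ρX hrel w
  rw [hw, map_zero, zero_smul] at h
  exact (neg_eq_of_add_eq_zero_right h).symm

include hrel in
/-- (R1): for `w` in the kernel, `w y = y* w` on `X`. -/
theorem actX_mul_of_ker {w : MonoidAlgebra T G} (hw : actV ρV w = 0) (y : MonoidAlgebra T G) :
    actX ρX w * actX ρX y = actX ρX (star ρV y) * actX ρX w := by
  have hwy : actV ρV (w * y) = 0 := by rw [map_mul, hw, zero_mul]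
  have h1 := actX_star_of_ker ρV ρX hrel hwy
  rw [star_mul, map_mul, map_mul, actX_star_of_ker ρV ρX hrel hw, mul_neg, neg_inj] at h1
  exact h1.symm

theorem star_star (a : MonoidAlgebra T G) : star ρV (star ρV a) = a := by
  induction a using MonoidAlgebra.induction_on with
  | of g =>
    rw [star_of, star_smul, star_of, inv_inv, smul_smul, ← map_mul, mul_inv_cancel, map_one,
      one_smul]
  | add a b ha hb => rw [star_add, star_add, ha, hb]
  | smul c a ha => rw [star_smul, star_smul, ha]

include hrel in
/-- (R2): commutators kill the kernel on `X`. -/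
theorem actX_commutator_mul_of_ker {x : MonoidAlgebra T G} (hx : actV ρV x = 0)
    (a b : MonoidAlgebra T G) :
    (actX ρX b * actX ρX a - actX ρX a * actX ρX b) * actX ρX x = 0 := by
  have hax : actV ρV (a * x) = 0 := by rw [map_mul, hx, mul_zero]
  have h1 := actX_mul_of_ker ρV ρX hrel hax (star ρV b)
  have h2 := actX_mul_of_ker ρV ρX hrel hx (star ρV b)
  rw [star_star] at h1 h2
  rw [map_mul, mul_assoc, h2] at h1
  rw [sub_mul, mul_assoc, mul_assoc, h1, sub_self]

include hrel in
/-- (R3): elements of the kernel have square zero on `X`. -/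
theorem actX_sq_of_ker (htwo : IsUnit (2 : T)) {x : MonoidAlgebra T G} (hx : actV ρV x = 0) :
    actX ρX x * actX ρX x = 0 := by
  have h := actX_mul_of_ker ρV ρX hrel hx x
  rw [actX_star_of_ker ρV ρX hrel hx, neg_mul] at h
  have h2 : (2 : T) • (actX ρX x * actX ρX x) = 0 := by
    rw [two_smul]
    nth_rewrite 1 [h]
    exact neg_add_cancel _
  obtain ⟨u, hu⟩ := htwo
  have h3 := congrArg (fun z => ((u⁻¹ : Tˣ) : T) • z) h2
  simp only [smul_zero] at h3
  rwa [← hu, smul_smul, Units.inv_mul, one_smul] at h3

/-! ### The main theorem -/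

include hrel in
/-- **Carayol / Boston–Lenstra–Ribet**: the kernel of the action on `V` acts trivially on `X`. -/
theorem lift_eq_zero_of_lift_eq_zero (h2 : Module.finrank T V = 2) (htwo : IsUnit (2 : T))
    (hspan : Submodule.span T (Set.range ρV) = ⊤) {x : MonoidAlgebra T G}
    (hx : actV ρV x = 0) : actX ρX x = 0 := by
  classical
  rcases subsingleton_or_nontrivial T with hT | hT
  · have : Subsingleton X := Module.subsingleton T X
    exact Subsingleton.elim _ _
  -- surjectivity of `actV`
  have hsurj : Function.Surjective (actV ρV) := by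
    intro E
    have hE : E ∈ Submodule.span T (Set.range ρV) := by rw [hspan]; exact Submodule.mem_top
    refine Submodule.span_induction (p := fun E _ => ∃ a, actV ρV a = E) ?_ ?_ ?_ ?_ hE
    · rintro _ ⟨g, rfl⟩
      exact ⟨of T G g, actV_of ρV g⟩
    · exact ⟨0, map_zero _⟩
    · rintro _ _ _ _ ⟨a, rfl⟩ ⟨b, rfl⟩
      exact ⟨a + b, map_add _ _ _⟩
    · rintro c _ _ ⟨a, rfl⟩
      exact ⟨c • a, map_smul _ _ _⟩
  let b : Basis (Fin 2) T V := Module.finBasisOfFinrankEq T V h2
  let e := LinearMap.toMatrixAlgEquiv b
  -- lifts of the matrix units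
  obtain ⟨a11, h11⟩ := hsurj (e.symm (Matrix.single 0 0 1))
  obtain ⟨a12, h12⟩ := hsurj (e.symm (Matrix.single 0 1 1))
  obtain ⟨a21, h21⟩ := hsurj (e.symm (Matrix.single 1 0 1))
  -- two commutators `u ↦ E₁₂`, `v ↦ E₂₁`
  set u := a11 * a12 - a12 * a11 with hu
  set v := a21 * a11 - a11 * a21 with hv
  set k := 1 - (u * v + v * u) with hk
  have hkV : actV ρV k = 0 := by
    apply e.injective
    rw [hk, hu, hv]
    simp only [map_sub, map_add, map_mul, map_one, h11, h12, h21, AlgEquiv.apply_symm_apply,
      map_zero]
    ext i j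
    fin_cases i <;> fin_cases j <;>
      simp

  -- commutators kill the kernel
  have hcomm : ∀ {y : MonoidAlgebra T G}, actV ρV y = 0 →
      actX ρX u * actX ρX y = 0 ∧ actX ρX v * actX ρX y = 0 := by
    intro y hy
    constructor
    · have := actX_commutator_mul_of_ker ρV ρX hrel hy a12 a11
      rw [hu, map_sub, map_mul, map_mul]
      exact this
    · have := actX_commutator_mul_of_ker ρV ρX hrel hy a11 a21
      rw [hv, map_sub, map_mul, map_mul]
      exact this
  -- (R4): `x = k x` on `X` for `x` in the kernel
  have hR4 : ∀ {y : MonoidAlgebra T G}, actV ρV y = 0 → actX ρX y = actX ρX k * actX ρX y := by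
    intro y hy
    obtain ⟨hu0, hv0⟩ := hcomm hy
    rw [hk, map_sub, map_one, map_add, map_mul, map_mul, sub_mul, one_mul, add_mul, mul_assoc,
      mul_assoc, hu0, hv0, mul_zero, mul_zero, add_zero, sub_zero]
  have hk0 : actX ρX k = 0 := by
    have := hR4 hkV
    rwa [actX_sq_of_ker ρV ρX hrel htwo hkV] at this
  rw [hR4 hx, hk0, zero_mul]

/-- surjectivity of the action on `V`. -/
theorem actV_surjective (hspan : Submodule.span T (Set.range ρV) = ⊤) :
    Function.Surjective (actV ρV) := by
  intro E
  have hE : E ∈ Submodule.span T (Set.range ρV) := by rw [hspan]; exact Submodule.mem_top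
  refine Submodule.span_induction (p := fun E _ => ∃ a, actV ρV a = E) ?_ ?_ ?_ ?_ hE
  · rintro _ ⟨g, rfl⟩
    exact ⟨of T G g, actV_of ρV g⟩
  · exact ⟨0, map_zero _⟩
  · rintro _ _ _ _ ⟨a, rfl⟩ ⟨b, rfl⟩
    exact ⟨a + b, map_add _ _ _⟩
  · rintro c _ _ ⟨a, rfl⟩
    exact ⟨c • a, map_smul _ _ _⟩

include hrel in
/-- two elements of the group algebra with the same action on `V` have the same action on `X`. -/
theorem actX_eq_of_actV_eq (h2 : Module.finrank T V = 2) (htwo : IsUnit (2 : T))
    (hspan : Submodule.span T (Set.range ρV) = ⊤) {x y : MonoidAlgebra T G}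
    (hxy : actV ρV x = actV ρV y) : actX ρX x = actX ρX y := by
  have h : actV ρV (x - y) = 0 := by rw [map_sub, hxy, sub_self]
  have := lift_eq_zero_of_lift_eq_zero ρV ρX hrel h2 htwo hspan h
  rwa [map_sub, sub_eq_zero] at this

include hrel in
/-- **The embedding.**  If `X` is a faithful finitely generated `T`-module, there is an injective
`G`-equivariant `T`-linear map `V → X ^ r`. -/
theorem exists_injective_equivariant [Module.Finite T X] (h2 : Module.finrank T V = 2)
    (htwo : IsUnit (2 : T)) (hspan : Submodule.span T (Set.range ρV) = ⊤)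
    (hfaith : ∀ c : T, (∀ x : X, c • x = 0) → c = 0) :
    ∃ (r : ℕ) (Ψ : V →ₗ[T] (Fin r → X)), Function.Injective Ψ ∧
      ∀ (g : G) (v : V) (i : Fin r), Ψ (ρV g v) i = ρX g (Ψ v i) := by
  classical
  rcases subsingleton_or_nontrivial T with hT | hT
  · have : Subsingleton V := Module.subsingleton T V
    exact ⟨0, 0, fun x y _ => Subsingleton.elim _ _, fun g v i => i.elim0⟩
  obtain ⟨r, s, hs⟩ := Module.Finite.exists_fin (R := T) (M := X)
  let b : Basis (Fin 2) T V := Module.finBasisOfFinrankEq T V h2
  have hsurj := actV_surjective ρV hspan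
  -- `E w` sends `b 0 ↦ w`, `b 1 ↦ 0`
  let E : V → End T V := fun w => (b.coord 0).smulRight w
  -- `F j` sends `b j ↦ b 0`, the other basis vector to `0`
  let F : Fin 2 → End T V := fun j => (b.coord j).smulRight (b 0)
  choose a ha using fun i : Fin 2 => hsurj (E (b i))
  choose c hc using fun j : Fin 2 => hsurj (F j)
  -- the lift of `E w`
  let z : V → MonoidAlgebra T G := fun w => ∑ i, b.repr w i • a i
  have hz : ∀ w, actV ρV (z w) = E w := by
    intro w
    simp only [z, map_sum, map_smul, ha]
    refine LinearMap.ext fun v' => ?_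
    simp only [E, LinearMap.sum_apply, LinearMap.smul_apply, LinearMap.smulRight_apply]
    conv_rhs => rw [← b.sum_repr w]
    rw [Finset.smul_sum]
    refine Finset.sum_congr rfl fun i _ => ?_
    rw [smul_comm]
  have hz_add : ∀ w w', z (w + w') = z w + z w' := by
    intro w w'
    simp only [z, map_add, Finsupp.add_apply, add_smul, Finset.sum_add_distrib]
  have hz_smul : ∀ (t : T) w, z (t • w) = t • z w := by
    intro t w
    simp only [z, map_smul, Finsupp.smul_apply, smul_eq_mul, mul_smul, Finset.smul_sum]
  let Ψ : V →ₗ[T] (Fin r → X) :=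
    { toFun := fun v i => actX ρX (z v) (s i)
      map_add' := fun w w' => by
        funext i
        simp only [hz_add, map_add, LinearMap.add_apply, Pi.add_apply]
      map_smul' := fun t w => by
        funext i
        simp only [hz_smul, map_smul, LinearMap.smul_apply, Pi.smul_apply, RingHom.id_apply] }
  refine ⟨r, Ψ, ?_, ?_⟩
  · -- injectivity
    rw [← LinearMap.ker_eq_bot, LinearMap.ker_eq_bot']
    intro v hv
    -- `actX (z v)` vanishes on generators, hence everywhere
    have h0 : actX ρX (z v) = 0 := by
      apply LinearMap.ext_on hs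
      rintro _ ⟨i, rfl⟩
      exact congrFun hv i
    -- `1 = E₀₀ + E₁₀ E₀₀ E₀₁`
    have hone : actV ρV (a 0 + a 1 * a 0 * c 1) = actV ρV 1 := by
      rw [map_add, map_mul, map_mul, map_one]
      simp only [ha, hc]
      refine b.ext fun i => ?_
      fin_cases i <;> simp [E, F]
    have honeX := actX_eq_of_actV_eq ρV ρX hrel h2 htwo hspan hone
    -- the coordinates of `v` kill `actX (a 0)`
    have hcoord : ∀ j : Fin 2, b.repr v j • actX ρX (a 0) = 0 := by
      intro j
      have h1 : actV ρV (c j * z v) = actV ρV (b.repr v j • a 0) := by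
        rw [map_mul, hc, hz, map_smul, ha]
        refine LinearMap.ext fun v' => ?_
        simp only [E, F, Module.End.mul_apply, LinearMap.smulRight_apply, LinearMap.smul_apply,
          map_smul, Basis.coord_apply, smul_smul, mul_comm]
      have h2' := actX_eq_of_actV_eq ρV ρX hrel h2 htwo hspan h1
      rw [map_mul, h0, mul_zero, map_smul] at h2'
      exact h2'.symm
    have hv0 : ∀ j : Fin 2, b.repr v j = 0 := by
      intro j
      apply hfaith
      intro x
      have h3 : b.repr v j • (actX ρX (a 0 + a 1 * a 0 * c 1)) = 0 := by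
        rw [map_add, map_mul, map_mul, smul_add, hcoord j, zero_add, ← smul_mul_assoc,
          ← mul_smul_comm, hcoord j, mul_zero, zero_mul]
      rw [honeX, map_one] at h3
      have := congrArg (fun f : End T X => f x) h3
      simpa using this
    apply b.repr.injective
    ext j
    rw [hv0 j, map_zero, Finsupp.zero_apply]
  · -- equivariance
    intro g v i
    have h1 : actV ρV (z (ρV g v)) = actV ρV (of T G g * z v) := by
      rw [map_mul, hz, hz, actV_of]
      refine LinearMap.ext fun v' => ?_
      simp only [E, Module.End.mul_apply, LinearMap.smulRight_apply, map_smul]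
    have h2' := actX_eq_of_actV_eq ρV ρX hrel h2 htwo hspan h1
    show actX ρX (z (ρV g v)) (s i) = ρX g (actX ρX (z v) (s i))
    rw [h2', map_mul, actX_of, Module.End.mul_apply]

end Fermat.Agent.Flat83.CarayolBLR
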