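/-
helper83, conditional library "S19 ⇒ S32", part (A2): the Hecke eigenspace of `T ⊗ M` and its
Cayley–Hamilton relation.

`M` a `ℤ_[p]`-module (the Tate module) with commuting actions `a : R →+* End M` (Hecke) and
`ρM : G →* End M` (Galois), `d : G →* ℤ_[p]ˣ` (cyclotomic character); `T` a Noetherian local
`ℤ_[p]`-algebra with `p ∈ 𝔪_T`, `π : R →+* T`, `ρV : G →* End_T V` of rank two.  Frobenius data `Φ`:
`a t = ρM φ + ℓ • ρM φ⁻¹` (Eichler–Shimura), `d φ = ℓ`, `charpoly (ρV φ) = X² - π t X + ℓ`, and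
simultaneous density of Frobenius powers (`hdense`, exactly as in `ES/ALG31/S31Core12`).  Then

* `det_eq`   : `det (ρV g) = d g` in `T`;
* `eigen_CH` : on the eigenspace `eigen a π = {x ∈ T ⊗ M | a r x = π r • x}` every `g` satisfies
  `(ρM g + d g • ρM g⁻¹) x = tr (ρV g) • x`.
-/
import Mathlib
import Fermat.Agent.ES.ALG.RelDense9
import Fermat.Agent.ES.ALG31.Lucas15
import Fermat.Agent.ES.ALG31.TraceInv12

set_option autoImplicit false
set_option linter.unusedSectionVars false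

noncomputable section

namespace Fermat.Agent.Flat83.EigenCH

open Fermat.Agent.ES.ALG.RelDense9 Fermat.Agent.ES.ALG31.Lucas15 Fermat.Agent.ES.ALG31.TraceInv12
open TensorProduct Polynomial

/-! ### Lucas through a ring homomorphism into an endomorphism ring -/

section Lucas

variable {A : Type*} [CommRing A] {M : Type*} [AddCommGroup M] [Module A M]
  {R : Type*} [CommRing R]

theorem map_lucas (a : R →+* Module.End A M) {F F' : Module.End A M} (hFF' : F * F' = 1)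
    (hF'F : F' * F = 1) (t : R) (ℓ : ℕ) (ht : a t = F + (ℓ : A) • F') (j : ℕ) :
    a (lucasV t (ℓ : R) j) = F ^ j + ((ℓ : A) ^ j) • F' ^ j := by
  induction j using Nat.twoStepInduction with
  | zero =>
    rw [lucasV_zero, pow_zero, pow_zero, pow_zero, one_smul, map_ofNat]
    exact one_add_one_eq_two.symm
  | one =>
    rw [lucasV_one, pow_one, pow_one, pow_one]
    exact ht
  | more j h0 h1 =>
    rw [lucasV_add_two, lucas_rec hFF' hF'F, map_sub, map_mul, map_mul, map_natCast, ht, h1, h0]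
    congr 1
    rw [← nsmul_eq_mul, Nat.cast_smul_eq_nsmul]

end Lucas

/-! ### Determinants of congruent endomorphisms -/

section Det

variable {T : Type*} [CommRing T] {V : Type*} [AddCommGroup V] [Module T V] [Module.Free T V]
  [Module.Finite T V]

theorem det_sub_one_mem_of_endCongr {I : Ideal T} {X : Module.End T V} (h : EndCongr I X 1) :
    LinearMap.det X - 1 ∈ I := by
  classical
  let b := Module.Free.chooseBasis T V
  rw [← LinearMap.det_toMatrix b, ← Ideal.Quotient.eq_zero_iff_mem, map_sub, map_one, sub_eq_zero,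
    RingHom.map_det]
  have : (Ideal.Quotient.mk I).mapMatrix (LinearMap.toMatrix b b X) = 1 := by
    ext i j
    rw [RingHom.mapMatrix_apply, Matrix.map_apply, LinearMap.toMatrix_apply, Matrix.one_apply]
    have h1 := repr_mem_of_mem_smul_top b I (h (b j)) i
    rw [Module.End.one_apply, map_sub, Finsupp.sub_apply, Module.Basis.repr_self,
      Finsupp.single_apply] at h1
    have h2 := (Ideal.Quotient.eq_zero_iff_mem).2 h1
    rw [map_sub, sub_eq_zero] at h2
    rw [h2]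
    split_ifs with hij hji hji
    · simp
    · exact absurd hij.symm hji
    · exact absurd hji.symm hij
    · simp
  rw [this, Matrix.det_one]

end Det

/-! ### The eigenspace -/

section Eigen

variable {p : ℕ} [hp : Fact p.Prime]
  {R : Type*} [CommRing R]
  {M : Type*} [AddCommGroup M] [Module ℤ_[p] M]
  {G : Type*} [Group G]
  {T : Type*} [CommRing T] [Algebra ℤ_[p] T]

/-- The `π`-eigenspace of the Hecke action on `T ⊗ M`. -/
def eigen (a : R →+* Module.End ℤ_[p] M) (π : R →+* T) : Submodule T (T ⊗[ℤ_[p]] M) where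
  carrier := {x | ∀ r : R, (a r).baseChange T x = π r • x}
  add_mem' := by
    intro x y hx hy r
    rw [map_add, hx r, hy r, smul_add]
  zero_mem' := by
    intro r
    rw [map_zero, smul_zero]
  smul_mem' := by
    intro c x hx r
    rw [map_smul, hx r, smul_comm]

theorem mem_eigen {a : R →+* Module.End ℤ_[p] M} {π : R →+* T} {x : T ⊗[ℤ_[p]] M} :
    x ∈ eigen a π ↔ ∀ r : R, (a r).baseChange T x = π r • x := Iff.rfl

/-- congruences of endomorphisms of `M` modulo `p ^ m` pass to `T ⊗ M` modulo `𝔪_T ^ m`. -/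
theorem baseChange_sub_mem [IsLocalRing T] (hpT : (p : T) ∈ IsLocalRing.maximalIdeal T) {m : ℕ}
    {X Y : Module.End ℤ_[p] M} (h : EndCongr (Ideal.span {(p : ℤ_[p]) ^ m}) X Y)
    (z : T ⊗[ℤ_[p]] M) :
    X.baseChange T z - Y.baseChange T z ∈
      IsLocalRing.maximalIdeal T ^ m • (⊤ : Submodule T (T ⊗[ℤ_[p]] M)) := by
  induction z using TensorProduct.induction_on with
  | zero => simp
  | tmul s v =>
    rw [LinearMap.baseChange_tmul, LinearMap.baseChange_tmul, ← tmul_sub]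
    have h1 := h v
    rw [Submodule.ideal_span_singleton_smul] at h1
    obtain ⟨w, -, hw⟩ := h1
    have hw' : ((p : ℤ_[p]) ^ m) • w = X v - Y v := hw
    rw [← hw']
    have h2 : s ⊗ₜ[ℤ_[p]] (((p : ℤ_[p]) ^ m) • w) = ((p : T) ^ m) • (s ⊗ₜ[ℤ_[p]] w) := by
      rw [tmul_smul, smul_tmul', smul_tmul', smul_eq_mul, Algebra.smul_def, map_pow, map_natCast]
    rw [h2]
    exact Submodule.smul_mem_smul (Ideal.pow_mem_pow hpT m) Submodule.mem_top
  | add x y hx hy =>
    have := Submodule.add_mem _ hx hy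
    rw [map_add, map_add]
    convert this using 1
    abel

end Eigen

/-! ### The main theorems -/

section Main

variable {p : ℕ} [hp : Fact p.Prime]
  {R : Type*} [CommRing R]
  {M : Type*} [AddCommGroup M] [Module ℤ_[p] M] [Module.Finite ℤ_[p] M]
  {G : Type*} [Group G]
  {T : Type*} [CommRing T] [IsLocalRing T] [IsNoetherianRing T] [Algebra ℤ_[p] T]
  {V : Type*} [AddCommGroup V] [Module T V] [Module.Free T V] [Module.Finite T V]

variable (a : R →+* Module.End ℤ_[p] M) (ρM : G →* Module.End ℤ_[p] M) (d : G →* ℤ_[p]ˣ)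
  (hpT : (p : T) ∈ IsLocalRing.maximalIdeal T)
  (π : R →+* T) (hV : Module.finrank T V = 2) (ρV : G →* Module.End T V)
  (Φ : G → ℕ → R → Prop)
  (hΦM : ∀ φ ℓ t, Φ φ ℓ t → a t = ρM φ + (ℓ : ℤ_[p]) • ρM φ⁻¹)
  (hΦd : ∀ φ ℓ t, Φ φ ℓ t → ((d φ : ℤ_[p]ˣ) : ℤ_[p]) = ℓ)
  (hΦV : ∀ φ ℓ t, Φ φ ℓ t → (ρV φ).charpoly = X ^ 2 - C (π t) * X + C (ℓ : T))
  (hdense : ∀ (n m : ℕ) (g : G), ∃ φ ℓ t, ∃ j : ℕ, Φ φ ℓ t ∧
      EndCongr (IsLocalRing.maximalIdeal T ^ n) (ρV (g⁻¹ * φ ^ j)) 1 ∧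
      EndCongr (Ideal.span {(p : ℤ_[p]) ^ m}) (ρM (g⁻¹ * φ ^ j)) 1 ∧
      ((d (g⁻¹ * φ ^ j) : ℤ_[p]ˣ) : ℤ_[p]) - 1 ∈ Ideal.span {(p : ℤ_[p]) ^ m})

include hpT hV hΦd hΦV hdense in
/-- **The determinant of `ρV` is the cyclotomic character.** -/
theorem det_eq (g : G) :
    LinearMap.det (ρV g) = algebraMap ℤ_[p] T ((d g : ℤ_[p]ˣ) : ℤ_[p]) := by
  have hT : ∀ x : T, (∀ n, x ∈ IsLocalRing.maximalIdeal T ^ n) → x = 0 := by
    intro x hx
    have h := Ideal.iInf_pow_eq_bot_of_isLocalRing (IsLocalRing.maximalIdeal T)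
      (IsLocalRing.maximalIdeal.isMaximal T).ne_top
    have : x ∈ ⨅ i, IsLocalRing.maximalIdeal T ^ i := (Ideal.mem_iInf).2 hx
    rwa [h, Ideal.mem_bot] at this
  rw [← sub_eq_zero]
  apply hT
  intro n
  obtain ⟨φ, ℓ, t, j, hΦ, h1, -, h3⟩ := hdense n n g
  set h := g⁻¹ * φ ^ j with hh
  have hφj : φ ^ j = g * h := by rw [hh, mul_inv_cancel_left]
  have e1 : LinearMap.det (ρV (φ ^ j)) = (ℓ : T) ^ j := by
    rw [map_pow, map_pow, (trace_det_of_charpoly hV _ (hΦV φ ℓ t hΦ)).2]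
  have e2 : algebraMap ℤ_[p] T ((d (φ ^ j) : ℤ_[p]ˣ) : ℤ_[p]) = (ℓ : T) ^ j := by
    rw [map_pow, Units.val_pow_eq_pow_val, hΦd φ ℓ t hΦ, map_pow, map_natCast]
  have e3 : LinearMap.det (ρV h) - 1 ∈ IsLocalRing.maximalIdeal T ^ n :=
    det_sub_one_mem_of_endCongr h1
  have e4 : algebraMap ℤ_[p] T ((d h : ℤ_[p]ˣ) : ℤ_[p]) - 1 ∈ IsLocalRing.maximalIdeal T ^ n := by
    obtain ⟨u, hu⟩ := Ideal.mem_span_singleton.1 h3
    have : algebraMap ℤ_[p] T ((d h : ℤ_[p]ˣ) : ℤ_[p]) - 1 =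
        (p : T) ^ n * algebraMap ℤ_[p] T u := by
      rw [← map_one (algebraMap ℤ_[p] T), ← map_sub, hu, map_mul, map_pow, map_natCast]
    rw [this]
    exact Ideal.mul_mem_right _ _ (Ideal.pow_mem_pow hpT n)
  have e5 : LinearMap.det (ρV g) * LinearMap.det (ρV h) =
      algebraMap ℤ_[p] T ((d g : ℤ_[p]ˣ) : ℤ_[p]) * algebraMap ℤ_[p] T ((d h : ℤ_[p]ˣ) : ℤ_[p]) := by
    rw [← map_mul, ← map_mul, ← hφj, e1, ← map_mul, ← Units.val_mul, ← map_mul, ← hφj, e2]
  have e6 : LinearMap.det (ρV g) - algebraMap ℤ_[p] T ((d g : ℤ_[p]ˣ) : ℤ_[p]) =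
      algebraMap ℤ_[p] T ((d g : ℤ_[p]ˣ) : ℤ_[p]) *
        (algebraMap ℤ_[p] T ((d h : ℤ_[p]ˣ) : ℤ_[p]) - 1) -
      LinearMap.det (ρV g) * (LinearMap.det (ρV h) - 1) := by
    linear_combination e5
  rw [e6]
  exact Ideal.sub_mem _ (Ideal.mul_mem_left _ _ e4) (Ideal.mul_mem_left _ _ e3)

include hpT hV hΦM hΦd hΦV hdense in
/-- **The Cayley–Hamilton relation on the eigenspace.** -/
theorem eigen_CH (g : G) {x : T ⊗[ℤ_[p]] M} (hx : x ∈ eigen a π) :
    (W ρM d g).baseChange T x = LinearMap.trace T V (ρV g) • x := by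
  have hK := Ideal.iInf_pow_smul_eq_bot_of_isLocalRing (M := T ⊗[ℤ_[p]] M)
    (IsLocalRing.maximalIdeal T) (IsLocalRing.maximalIdeal.isMaximal T).ne_top
  rw [← sub_eq_zero, ← Submodule.mem_bot T, ← hK, Submodule.mem_iInf]
  intro n
  obtain ⟨φ, ℓ, t, j, hΦ, h1, h2, h3⟩ := hdense n n g
  set h := g⁻¹ * φ ^ j with hh
  have hφj : φ ^ j = g * h := by rw [hh, mul_inv_cancel_left]
  have hFF' : ρM φ * ρM φ⁻¹ = 1 := by rw [← map_mul, mul_inv_cancel, map_one]
  have hF'F : ρM φ⁻¹ * ρM φ = 1 := by rw [← map_mul, inv_mul_cancel, map_one]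
  have e1 : a (lucasV t (ℓ : R) j) = W ρM d (g * h) := by
    rw [← hφj, W_pow, hΦd φ ℓ t hΦ, map_lucas a hFF' hF'F t ℓ (hΦM φ ℓ t hΦ) j]
  have e2 : π (lucasV t (ℓ : R) j) = LinearMap.trace T V (ρV (g * h)) := by
    rw [← hφj, map_pow, trace_pow_of_charpoly hV _ (hΦV φ ℓ t hΦ) j, map_lucasV, map_natCast]
  have e3 : EndCongr (Ideal.span {(p : ℤ_[p]) ^ n}) (W ρM d (g * h)) (W ρM d g) :=
    W_congr ρM d g h h2 h3
  have e4 : LinearMap.trace T V (ρV (g * h)) - LinearMap.trace T V (ρV g) ∈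
      IsLocalRing.maximalIdeal T ^ n := by
    have := h1.mul_left (ρV g)
    rw [mul_one] at this
    rw [map_mul]
    exact trace_sub_mem_of_endCongr this
  have hx' := hx (lucasV t (ℓ : R) j)
  rw [e1, e2] at hx'
  have e5 : (W ρM d g).baseChange T x - LinearMap.trace T V (ρV g) • x =
      -((W ρM d (g * h)).baseChange T x - (W ρM d g).baseChange T x) +
        (LinearMap.trace T V (ρV (g * h)) - LinearMap.trace T V (ρV g)) • x := by
    rw [hx']
    module
  rw [e5]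
  exact Submodule.add_mem _ (Submodule.neg_mem _ (baseChange_sub_mem hpT e3 x))
    (Submodule.smul_mem_smul e4 Submodule.mem_top)

end Main

end Fermat.Agent.Flat83.EigenCH
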