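/-
helper83, conditional library "S19 ⇒ S32", part (A): a commutative ring `R` which is finite free
over `ℤ` and reduced has an integral separability family: `x y : Fin n → R`, `D ≠ 0` with
`∑ x i * y i = D` and `∑ (s * x i) ⊗ y i = ∑ x i ⊗ (s * y i)` in `R ⊗[ℤ] R`.
(From the separability idempotent of the étale `ℚ`-algebra `ℚ ⊗ R`, clearing denominators.)
-/
import Mathlib

set_option autoImplicit false
set_option linter.unusedSectionVars false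

noncomputable section

namespace Fermat.Agent.Flat83.SepFamily

open TensorProduct

section Unramified

variable (R : Type*) [CommRing R] [Module.Finite ℤ R] [Module.Free ℤ R] [IsReduced R]

omit [Module.Finite ℤ R] [Module.Free ℤ R] in
attribute [local instance] Algebra.TensorProduct.rightAlgebra in
theorem isReduced_rat_tensor : IsReduced (ℚ ⊗[ℤ] R) := by
  have h : IsLocalization (Algebra.algebraMapSubmonoid R (nonZeroDivisors ℤ)) (ℚ ⊗[ℤ] R) :=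
    inferInstance
  exact isReduced_localizationPreserves (Algebra.algebraMapSubmonoid R (nonZeroDivisors ℤ))
    (ℚ ⊗[ℤ] R) inferInstance

omit [Module.Free ℤ R] in
theorem formallyUnramified_rat_tensor : Algebra.FormallyUnramified ℚ (ℚ ⊗[ℤ] R) := by
  have hred : IsReduced (ℚ ⊗[ℤ] R) := isReduced_rat_tensor R
  have hart : IsArtinianRing (ℚ ⊗[ℤ] R) := IsArtinianRing.of_finite ℚ _
  let e := (IsArtinianRing.equivPi (ℚ ⊗[ℤ] R)).restrictScalars ℚ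
  have hfield : ∀ I : MaximalSpectrum (ℚ ⊗[ℤ] R),
      Algebra.FormallyUnramified ℚ ((ℚ ⊗[ℤ] R) ⧸ I.asIdeal) := by
    intro I
    let _ : Field ((ℚ ⊗[ℤ] R) ⧸ I.asIdeal) := Ideal.Quotient.field I.asIdeal
    have : Algebra.IsSeparable ℚ ((ℚ ⊗[ℤ] R) ⧸ I.asIdeal) := inferInstance
    exact Algebra.FormallyUnramified.of_isSeparable ℚ _
  have : Algebra.FormallyUnramified ℚ (∀ I : MaximalSpectrum (ℚ ⊗[ℤ] R), (ℚ ⊗[ℤ] R) ⧸ I.asIdeal) :=
    inferInstance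
  exact Algebra.FormallyUnramified.of_equiv e.symm

end Unramified

section Family

variable (R : Type*) [CommRing R] [Module.Finite ℤ R] [Module.Free ℤ R]

/-- the canonical map `R ⊗[ℤ] R → (ℚ ⊗ R) ⊗[ℚ] (ℚ ⊗ R)`. -/
def jMap : R ⊗[ℤ] R →+ (ℚ ⊗[ℤ] R) ⊗[ℚ] (ℚ ⊗[ℤ] R) :=
  TensorProduct.liftAddHom
    (AddMonoidHom.mk' (fun r : R => AddMonoidHom.mk'
      (fun r' : R => ((1 : ℚ) ⊗ₜ[ℤ] r) ⊗ₜ[ℚ] ((1 : ℚ) ⊗ₜ[ℤ] r'))
      (fun a b => by rw [tmul_add, tmul_add]))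
      (fun a b => by
        ext r'
        simp only [AddMonoidHom.mk'_apply, AddMonoidHom.add_apply]
        rw [tmul_add, add_tmul]))
    (fun z r r' => by
      simp only [AddMonoidHom.mk'_apply]
      rw [tmul_smul, tmul_smul, smul_tmul', ← smul_tmul, smul_tmul'])

theorem jMap_tmul (r r' : R) :
    jMap R (r ⊗ₜ[ℤ] r') = ((1 : ℚ) ⊗ₜ[ℤ] r) ⊗ₜ[ℚ] ((1 : ℚ) ⊗ₜ[ℤ] r') := rfl

theorem jMap_injective : Function.Injective (jMap R) := by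
  classical
  let b : Module.Basis (Fin (Module.finrank ℤ R)) ℤ R := Module.finBasis ℤ R
  let bB : Module.Basis (Fin (Module.finrank ℤ R)) ℚ (ℚ ⊗[ℤ] R) := Algebra.TensorProduct.basis ℚ b
  let bb := bB.tensorProduct bB
  let bZ := b.tensorProduct b
  have key : ∀ w : R ⊗[ℤ] R,
      bb.repr (jMap R w) = (bZ.repr w).mapRange (Int.cast : ℤ → ℚ) Int.cast_zero := by
    intro w
    induction w using TensorProduct.induction_on with
    | zero => simp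
    | tmul r r' =>
      ext ⟨i, j⟩
      rw [jMap_tmul, Module.Basis.tensorProduct_repr_tmul_apply, Finsupp.mapRange_apply,
        Module.Basis.tensorProduct_repr_tmul_apply]
      simp [bB, Algebra.TensorProduct.basis_repr_tmul]
    | add w w' hw hw' =>
      rw [map_add, map_add, hw, hw', map_add]
      ext ij
      simp
  intro w w' hww'
  have h1 := key w
  rw [hww', key w'] at h1
  have h2 : bZ.repr w' = bZ.repr w :=
    Finsupp.mapRange_injective _ Int.cast_zero Int.cast_injective h1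
  exact (bZ.repr.injective h2).symm

variable [IsReduced R]

/-- **the integral separability family.** -/
theorem exists_sep_family :
    ∃ (n : ℕ) (x y : Fin n → R) (D : ℤ), D ≠ 0 ∧ (∑ i, x i * y i = (D : R)) ∧
      ∀ s : R, ∑ i, (s * x i) ⊗ₜ[ℤ] y i = ∑ i, x i ⊗ₜ[ℤ] (s * y i) := by
  classical
  have hunr := formallyUnramified_rat_tensor R
  obtain ⟨t, ht1, ht2⟩ := Algebra.FormallyUnramified.iff_exists_tensorProduct.mp hunr
  let b : Module.Basis (Fin (Module.finrank ℤ R)) ℤ R := Module.finBasis ℤ R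
  let bB : Module.Basis (Fin (Module.finrank ℤ R)) ℚ (ℚ ⊗[ℤ] R) := Algebra.TensorProduct.basis ℚ b
  let bb := bB.tensorProduct bB
  have hbB : ∀ i, bB i = (1 : ℚ) ⊗ₜ[ℤ] b i := fun i => Algebra.TensorProduct.basis_apply b i
  -- clear denominators
  obtain ⟨⟨D, hD⟩, hC⟩ := IsLocalization.exist_integer_multiples_of_finite (nonZeroDivisors ℤ)
    (fun ij : Fin (Module.finrank ℤ R) × Fin (Module.finrank ℤ R) => bb.repr t ij)
  choose C hC' using hC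
  have hD0 : D ≠ 0 := nonZeroDivisors.ne_zero hD
  have hCq : ∀ i j, ((C (i, j) : ℤ) : ℚ) = (D : ℚ) * bb.repr t (i, j) := by
    intro i j
    have := hC' (i, j)
    simpa [Algebra.smul_def] using this
  -- the key identity
  have hy : ∀ i, (1 : ℚ) ⊗ₜ[ℤ] (∑ j, C (i, j) • b j) = ∑ j, ((C (i, j) : ℤ) : ℚ) • bB j := by
    intro i
    rw [tmul_sum]
    refine Finset.sum_congr rfl fun j _ => ?_
    rw [tmul_smul, hbB, Int.cast_smul_eq_zsmul]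
  have hsum : ∑ i, (bB i) ⊗ₜ[ℚ] ((1 : ℚ) ⊗ₜ[ℤ] (∑ j, C (i, j) • b j)) = (D : ℚ) • t := by
    conv_rhs => rw [← bb.sum_repr t, Fintype.sum_prod_type, Finset.smul_sum]
    refine Finset.sum_congr rfl fun i _ => ?_
    rw [hy, tmul_sum, Finset.smul_sum]
    refine Finset.sum_congr rfl fun j _ => ?_
    rw [tmul_smul, hCq, smul_smul, Module.Basis.tensorProduct_apply]
  refine ⟨Module.finrank ℤ R, b, fun i => ∑ j, C (i, j) • b j, D, hD0, ?_, ?_⟩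
  · -- `∑ x i * y i = D`
    have hinj : Function.Injective
        (Algebra.TensorProduct.includeRight (R := ℤ) (A := ℚ) (B := R)) :=
      Algebra.TensorProduct.includeRight_injective (fun a b hab => Int.cast_injective hab)
    apply hinj
    change (1 : ℚ) ⊗ₜ[ℤ] (∑ i, b i * ∑ j, C (i, j) • b j) = (1 : ℚ) ⊗ₜ[ℤ] (D : R)
    have h1 := congrArg (Algebra.TensorProduct.lmul' ℚ) hsum
    rw [map_sum, map_smul, ht2] at h1
    simp only [Algebra.TensorProduct.lmul'_apply_tmul, hbB, Algebra.TensorProduct.tmul_mul_tmul,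
      one_mul] at h1
    rw [tmul_sum, h1]
    rw [Algebra.TensorProduct.one_def, TensorProduct.smul_tmul', smul_eq_mul, mul_one]
    have hDR : ((D : ℤ) : R) = D • (1 : R) := by simp
    rw [hDR, TensorProduct.tmul_smul, TensorProduct.smul_tmul', zsmul_eq_mul, mul_one]
  · intro s
    apply jMap_injective R
    rw [map_sum, map_sum]
    simp only [jMap_tmul]
    have e1 : ∀ i, ((1 : ℚ) ⊗ₜ[ℤ] (s * b i)) ⊗ₜ[ℚ] ((1 : ℚ) ⊗ₜ[ℤ] (∑ j, C (i, j) • b j)) =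
        (((1 : ℚ) ⊗ₜ[ℤ] s) ⊗ₜ[ℚ] (1 : ℚ ⊗[ℤ] R)) *
          ((bB i) ⊗ₜ[ℚ] ((1 : ℚ) ⊗ₜ[ℤ] (∑ j, C (i, j) • b j))) := by
      intro i
      rw [Algebra.TensorProduct.tmul_mul_tmul, one_mul, hbB, Algebra.TensorProduct.tmul_mul_tmul,
        one_mul]
    have e2 : ∀ i, ((1 : ℚ) ⊗ₜ[ℤ] b i) ⊗ₜ[ℚ] ((1 : ℚ) ⊗ₜ[ℤ] (s * ∑ j, C (i, j) • b j)) =
        ((1 : ℚ ⊗[ℤ] R) ⊗ₜ[ℚ] ((1 : ℚ) ⊗ₜ[ℤ] s)) *
          ((bB i) ⊗ₜ[ℚ] ((1 : ℚ) ⊗ₜ[ℤ] (∑ j, C (i, j) • b j))) := by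
      intro i
      rw [Algebra.TensorProduct.tmul_mul_tmul, one_mul, hbB, Algebra.TensorProduct.tmul_mul_tmul,
        one_mul]
    have e1' : ∑ i, ((1 : ℚ) ⊗ₜ[ℤ] (s * b i)) ⊗ₜ[ℚ] ((1 : ℚ) ⊗ₜ[ℤ] (∑ j, C (i, j) • b j)) =
        (((1 : ℚ) ⊗ₜ[ℤ] s) ⊗ₜ[ℚ] (1 : ℚ ⊗[ℤ] R)) *
          ∑ i, ((bB i) ⊗ₜ[ℚ] ((1 : ℚ) ⊗ₜ[ℤ] (∑ j, C (i, j) • b j))) := by
      have h := map_sum (AddMonoidHom.mulLeft (((1 : ℚ) ⊗ₜ[ℤ] s) ⊗ₜ[ℚ] (1 : ℚ ⊗[ℤ] R)))
        (fun i => (bB i) ⊗ₜ[ℚ] ((1 : ℚ) ⊗ₜ[ℤ] (∑ j, C (i, j) • b j))) Finset.univ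
      refine Eq.trans ?_ h.symm
      exact Finset.sum_congr rfl fun i _ => e1 i
    have e2' : ∑ i, ((1 : ℚ) ⊗ₜ[ℤ] b i) ⊗ₜ[ℚ] ((1 : ℚ) ⊗ₜ[ℤ] (s * ∑ j, C (i, j) • b j)) =
        ((1 : ℚ ⊗[ℤ] R) ⊗ₜ[ℚ] ((1 : ℚ) ⊗ₜ[ℤ] s)) *
          ∑ i, ((bB i) ⊗ₜ[ℚ] ((1 : ℚ) ⊗ₜ[ℤ] (∑ j, C (i, j) • b j))) := by
      have h := map_sum (AddMonoidHom.mulLeft ((1 : ℚ ⊗[ℤ] R) ⊗ₜ[ℚ] ((1 : ℚ) ⊗ₜ[ℤ] s)))
        (fun i => (bB i) ⊗ₜ[ℚ] ((1 : ℚ) ⊗ₜ[ℤ] (∑ j, C (i, j) • b j))) Finset.univ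
      refine Eq.trans ?_ h.symm
      exact Finset.sum_congr rfl fun i _ => e2 i
    rw [e1', e2', hsum, mul_smul_comm, mul_smul_comm]
    congr 1
    have := ht1 ((1 : ℚ) ⊗ₜ[ℤ] s)
    rw [sub_mul, sub_eq_zero] at this
    exact this.symm

end Family

end Fermat.Agent.Flat83.SepFamily
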