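/-
helper83, conditional library "S19 ⇒ S32", part (A3): the Hecke eigenspace `eigen a π ⊆ T ⊗ M` is a
faithful `T`-module.

`R` finite free over `ℤ` and reduced (the anemic Hecke algebra), `a : R →+* End_{ℤ_p} M`,
`π : R →+* T` with `T` finite free over `ℤ_[p]`, and `hker`: every `ℤ_[p]`-linear relation among the
`a r` also holds among the `π r`.  With an integral separability family `∑ x i * y i = D`
(`SepFamily.exists_sep_family`) the elements `e m = ∑ π (y i) ⊗ a (x i) m` lie in the eigenspace,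
and `t • e m = 0` for all `m` forces `D • t = 0`.
-/
import Mathlib
import Fermat.Agent.Flat83.EigenCH
import Fermat.Agent.Flat83.SepFamily

set_option autoImplicit false
set_option linter.unusedSectionVars false

noncomputable section

namespace Fermat.Agent.Flat83.EigenFaith

open TensorProduct Fermat.Agent.Flat83.EigenCH

variable {p : ℕ} [hp : Fact p.Prime]
  {R : Type*} [CommRing R]
  {M : Type*} [AddCommGroup M] [Module ℤ_[p] M]
  {T : Type*} [CommRing T] [Algebra ℤ_[p] T]

/-! ### coordinates of `T ⊗ M` with respect to a basis of `T` -/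

section Coord

variable {ι : Type*} (b : Module.Basis ι ℤ_[p] T)

/-- the `j`-th coordinate `T ⊗ M → M`. -/
def coordM (j : ι) : T ⊗[ℤ_[p]] M →ₗ[ℤ_[p]] M :=
  (TensorProduct.lid ℤ_[p] M).toLinearMap ∘ₗ (b.coord j).rTensor M

theorem coordM_tmul (j : ι) (t : T) (m : M) :
    coordM b j (t ⊗ₜ[ℤ_[p]] m) = b.repr t j • m := by
  simp [coordM]

theorem eq_zero_of_coordM (x : T ⊗[ℤ_[p]] M) (h : ∀ j, coordM b j x = 0) : x = 0 := by
  classical
  apply (TensorProduct.equivFinsuppOfBasisLeft b).injective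
  rw [map_zero]
  ext j
  rw [TensorProduct.equivFinsuppOfBasisLeft_apply, Finsupp.zero_apply]
  exact h j

end Coord

/-! ### the bilinear pairing -/

/-- `r ⊗ r' ↦ π r' ⊗ a r m`. -/
def beta (a : R →+* Module.End ℤ_[p] M) (π : R →+* T) (m : M) : R ⊗[ℤ] R →+ T ⊗[ℤ_[p]] M :=
  TensorProduct.liftAddHom
    (AddMonoidHom.mk' (fun r : R => AddMonoidHom.mk'
      (fun r' : R => π r' ⊗ₜ[ℤ_[p]] a r m)
      (fun u v => by rw [map_add, add_tmul]))
      (fun u v => by
        ext r'
        simp only [AddMonoidHom.mk'_apply, AddMonoidHom.add_apply]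
        rw [map_add, LinearMap.add_apply, tmul_add]))
    (fun z r r' => by
      simp only [AddMonoidHom.mk'_apply]
      rw [map_zsmul, map_zsmul, LinearMap.smul_apply, tmul_smul, smul_tmul'])

theorem beta_tmul (a : R →+* Module.End ℤ_[p] M) (π : R →+* T) (m : M) (r r' : R) :
    beta a π m (r ⊗ₜ[ℤ] r') = π r' ⊗ₜ[ℤ_[p]] a r m := rfl

/-! ### faithfulness -/

variable [Module.Finite ℤ R] [Module.Free ℤ R] [IsReduced R]
  [Module.Finite ℤ_[p] T] [Module.Free ℤ_[p] T]

/-- **The eigenspace is a faithful `T`-module.** -/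
theorem eigen_faithful (a : R →+* Module.End ℤ_[p] M) (π : R →+* T)
    (hker : ∀ (n : ℕ) (c : Fin n → ℤ_[p]) (r : Fin n → R),
      ∑ i, c i • a (r i) = 0 → ∑ i, c i • π (r i) = 0)
    (t : T) (ht : ∀ x ∈ eigen a π, t • x = 0) : t = 0 := by
  classical
  obtain ⟨n, x, y, D, hD, hxy, hsep⟩ := Fermat.Agent.Flat83.SepFamily.exists_sep_family R
  -- the elements `e m`
  set e : M → T ⊗[ℤ_[p]] M := fun m => ∑ i, π (y i) ⊗ₜ[ℤ_[p]] a (x i) m with he
  have hmem : ∀ m, e m ∈ eigen a π := by
    intro m s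
    have h1 := congrArg (beta a π m) (hsep s)
    simp only [map_sum, beta_tmul] at h1
    rw [he]
    simp only [map_sum, LinearMap.baseChange_tmul, Finset.smul_sum, smul_tmul', smul_eq_mul]
    have h2 : ∀ i, π (y i) ⊗ₜ[ℤ_[p]] (a s) ((a (x i)) m) = π (y i) ⊗ₜ[ℤ_[p]] a (s * x i) m := by
      intro i
      rw [map_mul, Module.End.mul_apply]
    have h3 : ∀ i, (π s * π (y i)) ⊗ₜ[ℤ_[p]] a (x i) m = π (s * y i) ⊗ₜ[ℤ_[p]] a (x i) m := by
      intro i
      rw [map_mul]
    simp only [h2, h3]
    exact h1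
  let b := Module.Free.chooseBasis ℤ_[p] T
  -- the relations
  have hrel : ∀ j, ∑ i, b.repr (t * π (y i)) j • π (x i) = 0 := by
    intro j
    apply hker
    refine LinearMap.ext fun m => ?_
    have h1 := ht (e m) (hmem m)
    have h2 := congrArg (coordM b j) h1
    rw [he] at h2
    simp only [Finset.smul_sum, smul_tmul', smul_eq_mul, map_sum, coordM_tmul, map_zero] at h2
    simp only [LinearMap.sum_apply, LinearMap.smul_apply, LinearMap.zero_apply]
    exact h2
  -- `t * D = 0`
  have hDt : (D : T) * t = 0 := by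
    have h1 : (D : T) = ∑ i, π (x i) * π (y i) := by
      rw [← map_intCast π, ← hxy, map_sum]
      simp only [map_mul]
    rw [h1, Finset.sum_mul]
    have h2 : ∀ i, π (x i) * π (y i) * t =
        ∑ j, (b.repr (t * π (y i)) j • π (x i)) * b j := by
      intro i
      have h3 : t * π (y i) = ∑ j, b.repr (t * π (y i)) j • b j := (b.sum_repr _).symm
      calc π (x i) * π (y i) * t = π (x i) * (t * π (y i)) := by ring
        _ = π (x i) * ∑ j, b.repr (t * π (y i)) j • b j := by rw [← h3]
        _ = ∑ j, (b.repr (t * π (y i)) j • π (x i)) * b j := by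
          rw [Finset.mul_sum]
          refine Finset.sum_congr rfl fun j _ => ?_
          rw [mul_smul_comm, smul_mul_assoc]
    simp only [h2]
    rw [Finset.sum_comm]
    refine Finset.sum_eq_zero fun j _ => ?_
    rw [← Finset.sum_mul, hrel j, zero_mul]
  have h4 : ((D : ℤ_[p])) • t = 0 := by
    rw [Algebra.smul_def, map_intCast]
    exact hDt
  have hD' : (D : ℤ_[p]) ≠ 0 := by exact_mod_cast hD
  exact (smul_eq_zero.mp h4).resolve_left hD'

end Fermat.Agent.Flat83.EigenFaith
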