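/-
helper83, conditional library "S19 ⇒ S32", part (A4): the embedding `V ↪ M ^ κ`.

With the notation of `EigenCH` / `EigenFaith`: the eigenspace `X = eigen a π ⊆ T ⊗ M` carries the
Galois action `rhoX` (the Hecke action commutes with Galois), satisfies the Cayley–Hamilton relation
of `ρV` (`EigenCH.eigen_CH`, `EigenCH.det_eq`) and is a faithful finitely generated `T`-module
(`EigenFaith.eigen_faithful`).  By Carayol / Boston–Lenstra–Ribet (`CarayolBLR`) there is an
injective equivariant `T`-linear map `V → X ^ r`; reading `T ⊗ M ≅ M ^ d` through a `ℤ_[p]`-basis of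
`T` gives an injective `ℤ_[p]`-linear `G`-equivariant map `V → M ^ κ`.
-/
import Mathlib
import Fermat.Agent.Flat83.EigenCH
import Fermat.Agent.Flat83.EigenFaith
import Fermat.Agent.Flat83.CarayolBLR

set_option autoImplicit false
set_option linter.unusedSectionVars false

noncomputable section

namespace Fermat.Agent.Flat83.EigenEmbed

open TensorProduct Polynomial Fermat.Agent.Flat83.EigenCH Fermat.Agent.Flat83.EigenFaith
open Fermat.Agent.ES.ALG.RelDense9 Fermat.Agent.ES.ALG31.TraceInv12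

variable {p : ℕ} [hp : Fact p.Prime]
  {R : Type*} [CommRing R]
  {M : Type*} [AddCommGroup M] [Module ℤ_[p] M]
  {G : Type*} [Group G]
  {T : Type*} [CommRing T] [Algebra ℤ_[p] T]

/-! ### the Galois action on the eigenspace -/

section Action

variable (a : R →+* Module.End ℤ_[p] M) (π : R →+* T) (ρM : G →* Module.End ℤ_[p] M)
  (hcomm : ∀ r g, Commute (a r) (ρM g))

include hcomm in
theorem baseChange_mem_eigen (g : G) {x : T ⊗[ℤ_[p]] M} (hx : x ∈ eigen a π) :
    (ρM g).baseChange T x ∈ eigen a π := by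
  intro r
  have h1 : (a r).baseChange T ((ρM g).baseChange T x) =
      (ρM g).baseChange T ((a r).baseChange T x) := by
    rw [← Module.End.mul_apply, ← Module.End.mul_apply, ← LinearMap.baseChange_mul,
      ← LinearMap.baseChange_mul, (hcomm r g).eq]
  rw [h1, hx r, map_smul]

/-- the Galois action on the eigenspace. -/
def rhoX : G →* Module.End T (eigen a π) where
  toFun g := ((ρM g).baseChange T).restrict fun _ hx => baseChange_mem_eigen a π ρM hcomm g hx
  map_one' := by
    refine LinearMap.ext fun x => Subtype.ext ?_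
    rw [LinearMap.coe_restrict_apply, map_one, LinearMap.baseChange_one]
    rfl
  map_mul' g h := by
    refine LinearMap.ext fun x => Subtype.ext ?_
    rw [LinearMap.coe_restrict_apply, map_mul, LinearMap.baseChange_mul, Module.End.mul_apply,
      Module.End.mul_apply, LinearMap.coe_restrict_apply, LinearMap.coe_restrict_apply]

theorem coe_rhoX (g : G) (x : eigen a π) :
    ((rhoX a π ρM hcomm g x : eigen a π) : T ⊗[ℤ_[p]] M) =
      (ρM g).baseChange T (x : T ⊗[ℤ_[p]] M) := rfl

end Action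

/-! ### naturality of the coordinates -/

theorem coordM_baseChange {ι : Type*} (b : Module.Basis ι ℤ_[p] T) (j : ι)
    (f : Module.End ℤ_[p] M) (x : T ⊗[ℤ_[p]] M) :
    coordM b j (f.baseChange T x) = f (coordM b j x) := by
  induction x using TensorProduct.induction_on with
  | zero => simp
  | tmul t m => rw [LinearMap.baseChange_tmul, coordM_tmul, coordM_tmul, map_smul]
  | add x y hx hy => rw [map_add, map_add, map_add, map_add, hx, hy]

/-! ### the embedding -/

section Main

variable [Module.Finite ℤ R] [Module.Free ℤ R] [IsReduced R]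
  [Module.Finite ℤ_[p] M]
  [IsLocalRing T] [IsNoetherianRing T] [Module.Finite ℤ_[p] T] [Module.Free ℤ_[p] T]
  {V : Type*} [AddCommGroup V] [Module T V] [Module.Free T V] [Module.Finite T V]
  [Module ℤ_[p] V] [IsScalarTower ℤ_[p] T V]

/-- **The embedding.** -/
theorem exists_embedding
    (a : R →+* Module.End ℤ_[p] M) (ρM : G →* Module.End ℤ_[p] M) (d : G →* ℤ_[p]ˣ)
    (hpT : (p : T) ∈ IsLocalRing.maximalIdeal T)
    (π : R →+* T) (hV : Module.finrank T V = 2) (ρV : G →* Module.End T V)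
    (Φ : G → ℕ → R → Prop)
    (hΦM : ∀ φ ℓ t, Φ φ ℓ t → a t = ρM φ + (ℓ : ℤ_[p]) • ρM φ⁻¹)
    (hΦd : ∀ φ ℓ t, Φ φ ℓ t → ((d φ : ℤ_[p]ˣ) : ℤ_[p]) = ℓ)
    (hΦV : ∀ φ ℓ t, Φ φ ℓ t → (ρV φ).charpoly = X ^ 2 - C (π t) * X + C (ℓ : T))
    (hdense : ∀ (n m : ℕ) (g : G), ∃ φ ℓ t, ∃ j : ℕ, Φ φ ℓ t ∧
      EndCongr (IsLocalRing.maximalIdeal T ^ n) (ρV (g⁻¹ * φ ^ j)) 1 ∧
      EndCongr (Ideal.span {(p : ℤ_[p]) ^ m}) (ρM (g⁻¹ * φ ^ j)) 1 ∧
      ((d (g⁻¹ * φ ^ j) : ℤ_[p]ˣ) : ℤ_[p]) - 1 ∈ Ideal.span {(p : ℤ_[p]) ^ m})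
    (hcomm : ∀ r g, Commute (a r) (ρM g))
    (hker : ∀ (n : ℕ) (c : Fin n → ℤ_[p]) (r : Fin n → R),
      ∑ i, c i • a (r i) = 0 → ∑ i, c i • π (r i) = 0)
    (htwo : IsUnit (2 : T))
    (hspan : Submodule.span T (Set.range ρV) = ⊤) :
    ∃ (κ : ℕ) (Ψ : V →ₗ[ℤ_[p]] (Fin κ → M)), Function.Injective Ψ ∧
      ∀ (g : G) (v : V) (j : Fin κ), Ψ (ρV g v) j = ρM g (Ψ v j) := by
  classical
  -- finiteness of the eigenspace
  have hN : IsNoetherian T (T ⊗[ℤ_[p]] M) := isNoetherian_of_isNoetherianRing_of_finite T _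
  have hfinX : Module.Finite T (eigen a π) := Module.IsNoetherian.finite T _
  -- the Cayley–Hamilton relation
  have hrel : ∀ g, rhoX a π ρM hcomm g + LinearMap.det (ρV g) • rhoX a π ρM hcomm g⁻¹ =
      LinearMap.trace T V (ρV g) • (1 : Module.End T (eigen a π)) := by
    intro g
    refine LinearMap.ext fun x => Subtype.ext ?_
    have h1 := eigen_CH a ρM d hpT π hV ρV Φ hΦM hΦd hΦV hdense g x.2
    have h2 := det_eq ρM d hpT π hV ρV Φ hΦd hΦV hdense g
    rw [LinearMap.add_apply, LinearMap.smul_apply, LinearMap.smul_apply, Module.End.one_apply,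
      Submodule.coe_add, Submodule.coe_smul, Submodule.coe_smul, coe_rhoX, coe_rhoX, h2,
      algebraMap_smul, ← h1]
    unfold W
    rw [LinearMap.baseChange_add, LinearMap.baseChange_smul, LinearMap.add_apply,
      LinearMap.smul_apply]
  -- faithfulness
  have hfaith : ∀ c : T, (∀ x : eigen a π, c • x = 0) → c = 0 := by
    intro c hc
    refine eigen_faithful a π hker c fun x hx => ?_
    have := congrArg Subtype.val (hc ⟨x, hx⟩)
    exact this
  obtain ⟨r, Ψ0, hinj, heq⟩ := Fermat.Agent.Flat83.CarayolBLR.exists_injective_equivariant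
    (X := eigen a π) ρV (rhoX a π ρM hcomm) hrel hV htwo hspan hfaith
  let b := Module.Free.chooseBasis ℤ_[p] T
  let e : Fin r × Module.Free.ChooseBasisIndex ℤ_[p] T ≃
      Fin (Fintype.card (Fin r × Module.Free.ChooseBasisIndex ℤ_[p] T)) := Fintype.equivFin _
  let Ψ : V →ₗ[ℤ_[p]] (Fin (Fintype.card (Fin r × Module.Free.ChooseBasisIndex ℤ_[p] T)) → M) :=
    { toFun := fun v k => coordM b (e.symm k).2 ((Ψ0 v (e.symm k).1 : eigen a π) : T ⊗[ℤ_[p]] M)
      map_add' := fun v w => by
        funext k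
        rw [map_add, Pi.add_apply, Pi.add_apply, Submodule.coe_add, map_add]
      map_smul' := fun c v => by
        funext k
        rw [RingHom.id_apply, Pi.smul_apply, ← algebraMap_smul T c v, map_smul, Pi.smul_apply,
          Submodule.coe_smul, algebraMap_smul, map_smul] }
  refine ⟨_, Ψ, ?_, ?_⟩
  · rw [← LinearMap.ker_eq_bot, LinearMap.ker_eq_bot']
    intro v hv
    apply hinj
    rw [map_zero]
    funext i
    apply Subtype.ext
    apply eq_zero_of_coordM b
    intro j
    have := congrFun hv (e (i, j))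
    simpa [Ψ] using this
  · intro g v k
    show coordM b (e.symm k).2 ((Ψ0 (ρV g v) (e.symm k).1 : eigen a π) : T ⊗[ℤ_[p]] M) =
      ρM g (coordM b (e.symm k).2 ((Ψ0 v (e.symm k).1 : eigen a π) : T ⊗[ℤ_[p]] M))
    rw [heq, coe_rhoX, coordM_baseChange]

end Main

end Fermat.Agent.Flat83.EigenEmbed
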