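/-
helper83, conditional library, part (A5): unipotent inertia transfers from the Tate module to `ρV`.

With the notation of `EigenCH` / `EigenFaith`: if `τ` acts on `M` (the Tate module) with
`(ρM τ - 1) ^ 2 = 0` and `d τ = 1` (cyclotomic character trivial on `τ`), then on the Hecke eigenspace
`ρM τ + ρM τ⁻¹ = 2`, so the Cayley–Hamilton relation `EigenCH.eigen_CH` and the faithfulness of the
eigenspace (`EigenFaith.eigen_faithful`) give `tr (ρV τ) = 2`; with `det (ρV τ) = d τ = 1`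
(`EigenCH.det_eq`) the characteristic polynomial of `ρV τ` is `(X - 1) ^ 2`.
No hypothesis `p ≠ 2` and no Carayol lemma is used.  (Abstract half of the frozen statement S34.)
-/
import Mathlib
import Fermat.Agent.Flat83.EigenCH
import Fermat.Agent.Flat83.EigenFaith

set_option autoImplicit false
set_option linter.unusedSectionVars false
set_option linter.overlappingInstances false
set_option linter.style.haveILetI false

noncomputable section

namespace Fermat.Agent.Flat83.EigenUnip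

open TensorProduct Polynomial Fermat.Agent.Flat83.EigenCH Fermat.Agent.Flat83.EigenFaith
open Fermat.Agent.ES.ALG.RelDense9 Fermat.Agent.ES.ALG31.TraceInv12

variable {p : ℕ} [hp : Fact p.Prime]
  {R : Type*} [CommRing R] [Module.Finite ℤ R] [Module.Free ℤ R] [IsReduced R]
  {M : Type*} [AddCommGroup M] [Module ℤ_[p] M] [Module.Finite ℤ_[p] M]
  {G : Type*} [Group G]
  {T : Type*} [CommRing T] [IsLocalRing T] [IsNoetherianRing T] [Algebra ℤ_[p] T]
  [Module.Finite ℤ_[p] T] [Module.Free ℤ_[p] T]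
  {V : Type*} [AddCommGroup V] [Module T V] [Module.Free T V] [Module.Finite T V]

/-- the characteristic polynomial in rank two. -/
theorem charpoly_eq_of_finrank_two [Nontrivial T] (hV : Module.finrank T V = 2)
    (f : Module.End T V) :
    f.charpoly = X ^ 2 - C (LinearMap.trace T V f) * X + C (LinearMap.det f) := by
  set b := Module.finBasisOfFinrankEq T V hV with hb
  rw [← LinearMap.charpoly_toMatrix f b, Matrix.charpoly_fin_two,
    ← LinearMap.trace_eq_matrix_trace T b, LinearMap.det_toMatrix b]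

/-- **unipotence transfers.** -/
theorem charpoly_of_unipotent
    (a : R →+* Module.End ℤ_[p] M) (ρM : G →* Module.End ℤ_[p] M) (d : G →* ℤ_[p]ˣ)
    (hpT : (p : T) ∈ IsLocalRing.maximalIdeal T)
    (π : R →+* T) (hV : Module.finrank T V = 2) (ρV : G →* Module.End T V)
    (Φ : G → ℕ → R → Prop)
    (hΦM : ∀ φ ℓ t, Φ φ ℓ t → a t = ρM φ + (ℓ : ℤ_[p]) • ρM φ⁻¹)
    (hΦd : ∀ φ ℓ t, Φ φ ℓ t → ((d φ : ℤ_[p]ˣ) : ℤ_[p]) = ℓ)
    (hΦV : ∀ φ ℓ t, Φ φ ℓ t → (ρV φ).charpoly = X ^ 2 - C (π t) * X + C (ℓ : T))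
    (hdense : ∀ (n m : ℕ) (g : G), ∃ φ ℓ t, ∃ j : ℕ, Φ φ ℓ t ∧
      EndCongr (IsLocalRing.maximalIdeal T ^ n) (ρV (g⁻¹ * φ ^ j)) 1 ∧
      EndCongr (Ideal.span {(p : ℤ_[p]) ^ m}) (ρM (g⁻¹ * φ ^ j)) 1 ∧
      ((d (g⁻¹ * φ ^ j) : ℤ_[p]ˣ) : ℤ_[p]) - 1 ∈ Ideal.span {(p : ℤ_[p]) ^ m})
    (hker : ∀ (n : ℕ) (c : Fin n → ℤ_[p]) (r : Fin n → R),
      ∑ i, c i • a (r i) = 0 → ∑ i, c i • π (r i) = 0)
    (τ : G) (hτ : (ρM τ - 1) ^ 2 = 0) (hdτ : d τ = 1) :
    (ρV τ).charpoly = (X - 1) ^ 2 := by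
  haveI : Nontrivial T := inferInstance
  -- `ρM τ + ρM τ⁻¹ = 2`
  have hinv : ρM τ * ρM τ⁻¹ = 1 := by rw [← map_mul, mul_inv_cancel, map_one]
  have hW : W ρM d τ = (2 : Module.End ℤ_[p] M) := by
    unfold W
    rw [hdτ, Units.val_one, one_smul]
    have h1 : ρM τ * ρM τ - 2 * ρM τ + 1 = 0 := by
      have : (ρM τ - 1) ^ 2 = ρM τ * ρM τ - 2 * ρM τ + 1 := by
        noncomm_ring
      rw [← this, hτ]
    have h2 := congrArg (fun X => X * ρM τ⁻¹) h1
    simp only [add_mul, sub_mul, mul_assoc, hinv, mul_one, one_mul, zero_mul] at h2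
    rw [sub_add_eq_add_sub, sub_eq_zero] at h2
    exact h2
  -- the trace is `2`
  have htr : LinearMap.trace T V (ρV τ) = 2 := by
    have hzero : (2 : T) - LinearMap.trace T V (ρV τ) = 0 := by
      refine eigen_faithful a π hker _ fun x hx => ?_
      have h1 := eigen_CH a ρM d hpT π hV ρV Φ hΦM hΦd hΦV hdense τ hx
      rw [hW] at h1
      have h2 : (2 : Module.End ℤ_[p] M).baseChange T x = (2 : T) • x := by
        have : (2 : Module.End ℤ_[p] M) = 1 + 1 := one_add_one_eq_two.symm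
        rw [this, LinearMap.baseChange_add, LinearMap.baseChange_one, LinearMap.add_apply,
          Module.End.one_apply, ← two_smul T x]
      rw [h2] at h1
      have h3 : ((2 : T) - LinearMap.trace T V (ρV τ)) • x =
          (2 : T) • x - LinearMap.trace T V (ρV τ) • x := by module
      rw [h3, h1, sub_self]
    exact (sub_eq_zero.mp hzero).symm
  have hdet : LinearMap.det (ρV τ) = 1 := by
    rw [det_eq ρM d hpT π hV ρV Φ hΦd hΦV hdense τ, hdτ, Units.val_one, map_one]
  rw [charpoly_eq_of_finrank_two hV, htr, hdet]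
  simp only [map_ofNat, map_one]
  ring

end Fermat.Agent.Flat83.EigenUnip
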