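/-
helper83, conditional library "S19 ⇒ S32", part (A), lattice step: an injective `ℤ_[p]`-linear map
`Ψ : V → (κ → T_p J)` into a finite power of a Tate module becomes, after projection to the
`p ^ n`-torsion level for `n` large, a map whose kernel is contained in `p ^ k V` (Artin–Rees).
-/
import Mathlib
import Fermat.Agent.ES.J.TateModule13

set_option autoImplicit false

noncomputable section

namespace Fermat.Agent.Flat83.Lattice

open Fermat.Agent.ES.J.TateModule13

/-- **Saturation over `ℤ_[p]`** (Artin–Rees): for an injective linear map `f : V → L` into a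
finitely generated `ℤ_[p]`-module there is `c` with `p ^ m ∣ f v → p ^ (m - c) ∣ v`. -/
theorem exists_sat_padic {p : ℕ} [hp : Fact p.Prime] {V L : Type*} [AddCommGroup V]
    [Module ℤ_[p] V] [AddCommGroup L] [Module ℤ_[p] L] [Module.Finite ℤ_[p] L]
    (f : V →ₗ[ℤ_[p]] L) (hf : Function.Injective f) :
    ∃ c : ℕ, ∀ (m : ℕ) (v : V) (e : L), f v = ((p : ℤ_[p]) ^ m) • e →
      ∃ w : V, v = ((p : ℤ_[p]) ^ (m - c)) • w := by
  set I : Ideal ℤ_[p] := Ideal.span {(p : ℤ_[p])} with hI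
  set N : Submodule ℤ_[p] L := LinearMap.range f with hN
  obtain ⟨k, hk⟩ := Ideal.exists_pow_inf_eq_pow_smul I N
  refine ⟨k, fun m v e hve => ?_⟩
  by_cases hmk : k ≤ m
  · have h1 : f v ∈ I ^ m • (⊤ : Submodule ℤ_[p] L) ⊓ N := by
      refine ⟨?_, ⟨v, rfl⟩⟩
      rw [hve]
      refine Submodule.smul_mem_smul ?_ Submodule.mem_top
      rw [hI, Ideal.span_singleton_pow]
      exact Ideal.mem_span_singleton_self _
    rw [hk m hmk] at h1
    have h2 : f v ∈ I ^ (m - k) • N := Submodule.smul_mono le_rfl inf_le_right h1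
    rw [hI, Ideal.span_singleton_pow, Submodule.ideal_span_singleton_smul] at h2
    obtain ⟨y, hy, hy'⟩ := h2
    obtain ⟨w, rfl⟩ := hy
    refine ⟨w, hf ?_⟩
    rw [map_smul]
    exact hy'.symm
  · refine ⟨v, ?_⟩
    rw [Nat.sub_eq_zero_of_le (le_of_not_ge hmk), pow_zero, one_smul]

variable {p : ℕ} [hp : Fact p.Prime] {J : Type*} [AddCommGroup J]
  [hfin : Finite {y : J // p • y = 0}]

/-- **the lattice step.** -/
theorem exists_level {V : Type*} [AddCommGroup V] [Module ℤ_[p] V] {κ : Type*} [Finite κ]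
    (Ψ : V →ₗ[ℤ_[p]] (κ → TateModule p J)) (hΨ : Function.Injective Ψ) (k : ℕ) :
    ∃ n : ℕ, ∀ v : V, (∀ j, proj n (Ψ v j) = 0) → ∃ w : V, v = ((p : ℤ_[p]) ^ k) • w := by
  have : Module.Finite ℤ_[p] (TateModule p J) := module_finite
  have : Module.Finite ℤ_[p] (κ → TateModule p J) := by
    have := Fintype.ofFinite κ
    infer_instance
  obtain ⟨c, hc⟩ := exists_sat_padic Ψ hΨ
  refine ⟨k + c, fun v hv => ?_⟩
  have h1 : ∀ j, ∃ y : TateModule p J, Ψ v j = ((p : ℤ_[p]) ^ (k + c)) • y :=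
    fun j => (proj_eq_zero_iff' (k + c) (Ψ v j)).mp (hv j)
  choose y hy using h1
  have h2 : Ψ v = ((p : ℤ_[p]) ^ (k + c)) • y := by
    funext j
    rw [Pi.smul_apply]
    exact hy j
  obtain ⟨w, hw⟩ := hc (k + c) v y h2
  rw [Nat.add_sub_cancel] at hw
  exact ⟨w, hw⟩

end Fermat.Agent.Flat83.Lattice
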