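/-
helper83, conditional library "S19 ⇒ S32", part (A): a complete local ring `T` with `p ∈ 𝔪_T` and
`T ⧸ p T` finite is a finite `ℤ_[p]`-module (complete Nakayama); if moreover `T` is finite free
over a characteristic zero discrete valuation ring `𝒪` with finite residue field, then `T ⧸ p T`
is finite and `T` is finite free over `ℤ_[p]`.
-/
import Mathlib

set_option autoImplicit false

noncomputable section

namespace Fermat.Agent.Flat83.PadicFinite

open IsLocalRing

/-! ### Finite products of precomplete modules -/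

section Pi

variable {R : Type*} [CommRing R] {ι : Type*} [Finite ι]

theorem mem_smul_top_pi_iff (J : Ideal R) (x : ι → R) :
    x ∈ J • (⊤ : Submodule R (ι → R)) ↔ ∀ i, x i ∈ J := by
  classical
  have := Fintype.ofFinite ι
  constructor
  · intro hx i
    refine Submodule.smul_induction_on hx (fun r hr m _ => ?_) (fun a b ha hb => ?_)
    · rw [Pi.smul_apply, smul_eq_mul]
      exact J.mul_mem_right _ hr
    · rw [Pi.add_apply]
      exact J.add_mem ha hb
  · intro hx
    have e : x = ∑ i, x i • (Pi.single i (1 : R) : ι → R) := by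
      funext j
      rw [Finset.sum_apply]
      simp [Pi.single_apply]
    rw [e]
    exact Submodule.sum_mem _ fun i _ => Submodule.smul_mem_smul (hx i) Submodule.mem_top

theorem isPrecomplete_pi (I : Ideal R) [IsPrecomplete I R] : IsPrecomplete I (ι → R) := by
  constructor
  intro f hf
  have hcomp : ∀ i : ι, ∃ L : R, ∀ n, f n i ≡ L [SMOD (I ^ n • ⊤ : Submodule R R)] := by
    intro i
    refine IsPrecomplete.prec' (fun n => f n i) ?_
    intro m n hmn
    have h1 := hf hmn
    rw [SModEq.sub_mem] at h1 ⊢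
    rw [smul_eq_mul, Ideal.mul_top]
    exact (mem_smul_top_pi_iff (I ^ m) _).mp h1 i
  choose L hL using hcomp
  refine ⟨L, fun n => ?_⟩
  rw [SModEq.sub_mem, mem_smul_top_pi_iff]
  intro i
  have h1 := hL i n
  rw [SModEq.sub_mem, smul_eq_mul, Ideal.mul_top] at h1
  exact h1

end Pi

/-! ### Complete Nakayama over `ℤ_[p]` -/

section Nakayama

variable (p : ℕ) [hp : Fact p.Prime]
variable {T : Type*} [CommRing T] [IsLocalRing T] [Algebra ℤ_[p] T]

omit [IsLocalRing T] in
theorem smul_top_eq_span :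
    ((Ideal.span {(p : ℤ_[p])}) • ⊤ : Submodule ℤ_[p] T) =
      (Ideal.span {(p : T)}).restrictScalars ℤ_[p] := by
  rw [Ideal.smul_top_eq_map, Ideal.map_span, Set.image_singleton, map_natCast]

theorem isHausdorff_span_p [IsHausdorff (maximalIdeal T) T] (hpT : (p : T) ∈ maximalIdeal T) :
    IsHausdorff (Ideal.span {(p : ℤ_[p])}) T := by
  constructor
  intro x hx
  apply IsHausdorff.haus (I := maximalIdeal T) inferInstance x
  intro n
  have h1 := hx n
  rw [SModEq.zero] at h1 ⊢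
  rw [Ideal.span_singleton_pow, Submodule.ideal_span_singleton_smul] at h1
  obtain ⟨y, -, rfl⟩ := h1
  rw [smul_eq_mul, Ideal.mul_top]
  change ((p : ℤ_[p]) ^ n) • y ∈ _
  rw [Algebra.smul_def, map_pow, map_natCast]
  exact Ideal.mul_mem_right _ _ (Ideal.pow_mem_pow hpT n)

/-- **complete Nakayama**: `T ⧸ p T` finite, `T` `𝔪`-adically separated with `p ∈ 𝔪` ⟹ `T` is a
finite `ℤ_[p]`-module. -/
theorem module_finite [IsHausdorff (maximalIdeal T) T] (hpT : (p : T) ∈ maximalIdeal T)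
    (hfin : Finite (T ⧸ Ideal.span {(p : T)})) : Module.Finite ℤ_[p] T := by
  classical
  set I : Ideal ℤ_[p] := Ideal.span {(p : ℤ_[p])} with hI
  have hfin' : Finite (T ⧸ (I • ⊤ : Submodule ℤ_[p] T)) := by
    rw [hI, smul_top_eq_span]
    exact hfin
  have := Fintype.ofFinite (T ⧸ (I • ⊤ : Submodule ℤ_[p] T))
  let x : (T ⧸ (I • ⊤ : Submodule ℤ_[p] T)) → T := Function.surjInv (Submodule.mkQ_surjective _)
  have hx : ∀ c, Submodule.mkQ (I • ⊤ : Submodule ℤ_[p] T) (x c) = c :=
    Function.surjInv_eq (Submodule.mkQ_surjective _)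
  let f : ((T ⧸ (I • ⊤ : Submodule ℤ_[p] T)) → ℤ_[p]) →ₗ[ℤ_[p]] T :=
    Fintype.linearCombination ℤ_[p] x
  have : IsPrecomplete I ℤ_[p] := by
    rw [hI, ← PadicInt.maximalIdeal_eq_span_p]
    infer_instance
  have : IsPrecomplete I ((T ⧸ (I • ⊤ : Submodule ℤ_[p] T)) → ℤ_[p]) := isPrecomplete_pi I
  have : IsHausdorff I T := isHausdorff_span_p p hpT
  have hsurj : Function.Surjective f := by
    apply surjective_of_mkQ_comp_surjective (I := I)
    intro c
    refine ⟨Pi.single c 1, ?_⟩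
    rw [LinearMap.comp_apply, Fintype.linearCombination_apply_single, one_smul]
    exact hx c
  exact Module.Finite.of_surjective f hsurj

end Nakayama

/-! ### Finite free algebras over a `p`-adic discrete valuation ring -/

section DVR

variable (p : ℕ) [hp : Fact p.Prime]

theorem finite_quotient_span_p_dvr (𝒪 : Type*) [CommRing 𝒪] [IsDomain 𝒪]
    [IsDiscreteValuationRing 𝒪] [Finite (ResidueField 𝒪)] [CharZero 𝒪] :
    Finite (𝒪 ⧸ Ideal.span {(p : 𝒪)}) := by
  have hp0 : (p : 𝒪) ≠ 0 := Nat.cast_ne_zero.mpr hp.out.ne_zero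
  have hne : Ideal.span {(p : 𝒪)} ≠ ⊥ := by
    rw [Ne, Ideal.span_singleton_eq_bot]
    exact hp0
  obtain ⟨n, hn⟩ := IsDiscreteValuationRing.ideal_eq_span_pow_irreducible hne
    (IsDiscreteValuationRing.exists_irreducible 𝒪).choose_spec
  rw [hn, ← Ideal.span_singleton_pow,
    ← (IsDiscreteValuationRing.irreducible_iff_uniformizer _).mp
      (IsDiscreteValuationRing.exists_irreducible 𝒪).choose_spec]
  have : Finite (𝒪 ⧸ maximalIdeal 𝒪) := ‹Finite (ResidueField 𝒪)›
  exact Ideal.finite_quotient_pow (IsNoetherian.noetherian _) n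

theorem finite_quotient_span_p (𝒪 : Type*) [CommRing 𝒪] [IsDomain 𝒪]
    [IsDiscreteValuationRing 𝒪] [Finite (ResidueField 𝒪)] [CharZero 𝒪]
    (T : Type*) [CommRing T] [Algebra 𝒪 T] [Module.Finite 𝒪 T] :
    Finite (T ⧸ Ideal.span {(p : T)}) := by
  have h1 : Finite (𝒪 ⧸ Ideal.span {(p : 𝒪)}) := finite_quotient_span_p_dvr p 𝒪
  have h2 : (Ideal.span {(p : 𝒪)}).map (algebraMap 𝒪 T) = Ideal.span {(p : T)} := by
    rw [Ideal.map_span, Set.image_singleton, map_natCast]
  have : IsNoetherian 𝒪 T := isNoetherian_of_isNoetherianRing_of_finite 𝒪 T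
  have h3 : IsNoetherian (𝒪 ⧸ Ideal.span {(p : 𝒪)})
      (T ⧸ (Ideal.span {(p : 𝒪)}).map (algebraMap 𝒪 T)) := inferInstance
  have h4 : Module.Finite (𝒪 ⧸ Ideal.span {(p : 𝒪)})
      (T ⧸ (Ideal.span {(p : 𝒪)}).map (algebraMap 𝒪 T)) := inferInstance
  have h5 : Finite (T ⧸ (Ideal.span {(p : 𝒪)}).map (algebraMap 𝒪 T)) :=
    Module.finite_of_finite (𝒪 ⧸ Ideal.span {(p : 𝒪)})
  rwa [h2] at h5

/-- a free module over a characteristic zero domain `𝒪` which is also a `ℤ_[p]`-algebra is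
`ℤ_[p]`-torsion free. -/
theorem isTorsionFree_padic (𝒪 : Type*) [CommRing 𝒪] [IsDomain 𝒪] [CharZero 𝒪]
    (T : Type*) [CommRing T] [Algebra 𝒪 T] [Module.Free 𝒪 T] [Algebra ℤ_[p] T] :
    Module.IsTorsionFree ℤ_[p] T := by
  refine Module.IsTorsionFree.of_smul_eq_zero fun r m hrm => ?_
  by_cases hr : r = 0
  · exact Or.inl hr
  refine Or.inr ?_
  have h1 := PadicInt.unitCoeff_spec hr
  rw [h1, Algebra.smul_def, map_mul, map_pow, map_natCast, mul_assoc] at hrm
  have hu : IsUnit (algebraMap ℤ_[p] T ((PadicInt.unitCoeff hr : ℤ_[p]ˣ) : ℤ_[p])) :=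
    (PadicInt.unitCoeff hr).isUnit.map _
  have h2 : ((p : T)) ^ r.valuation * m = 0 := by
    have := hu.mul_right_eq_zero.mp hrm
    exact this
  have h3 : ((p : 𝒪) ^ r.valuation) • m = 0 := by
    rw [Algebra.smul_def, map_pow, map_natCast]
    exact h2
  have hp0 : ((p : 𝒪)) ^ r.valuation ≠ 0 := pow_ne_zero _ (Nat.cast_ne_zero.mpr hp.out.ne_zero)
  have : Module.IsTorsionFree 𝒪 T := inferInstance
  exact (smul_eq_zero.mp h3).resolve_left hp0

/-- **`T` is finite free over `ℤ_[p]`.** -/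
theorem finite_free (𝒪 : Type*) [CommRing 𝒪] [IsDomain 𝒪] [IsDiscreteValuationRing 𝒪]
    [Finite (ResidueField 𝒪)] [CharZero 𝒪]
    (T : Type*) [CommRing T] [IsLocalRing T] [IsHausdorff (maximalIdeal T) T]
    [Algebra 𝒪 T] [Module.Finite 𝒪 T] [Module.Free 𝒪 T] [Algebra ℤ_[p] T]
    (hpT : (p : T) ∈ maximalIdeal T) :
    Module.Finite ℤ_[p] T ∧ Module.Free ℤ_[p] T := by
  have h1 : Module.Finite ℤ_[p] T := module_finite p hpT (finite_quotient_span_p p 𝒪 T)
  have h2 : Module.IsTorsionFree ℤ_[p] T := isTorsionFree_padic p 𝒪 T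
  exact ⟨h1, Module.free_of_finite_type_torsion_free'⟩

end DVR

end Fermat.Agent.Flat83.PadicFinite
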