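/-
helper83, conditional library "S19 ⇒ S32", part (A): over a local ring `A`, a representation on a
finite free module whose residual representation spans the residual endomorphism algebra spans the
endomorphism algebra over `A` (Nakayama).  Combined with `TraceRigid13.residual_span_eq_top` this
gives `Submodule.span T (Set.range H.ρ.ρ) = ⊤` for a residually absolutely irreducible
`GaloisRepAdic`.
-/
import Mathlib
import Fermat.Agent.ES.ALG31.TraceRigid13

set_option autoImplicit false

noncomputable section

namespace Fermat.Agent.Flat83.SpanTop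

open Module TensorProduct IsLocalRing

variable {A : Type*} [CommRing A] [IsLocalRing A] {V : Type*} [AddCommGroup V] [Module A V]

/-- `1 ⊗ v = 0` in `k ⊗ V` iff `v ∈ 𝔪 V`. -/
theorem tmul_eq_zero_iff (v : V) :
    (1 : ResidueField A) ⊗ₜ[A] v = 0 ↔ v ∈ maximalIdeal A • (⊤ : Submodule A V) := by
  have h : LinearMap.ker (TensorProduct.mk A (A ⧸ maximalIdeal A) V 1) = maximalIdeal A • ⊤ :=
    LinearMap.ker_tensorProductMk V
  rw [← h, LinearMap.mem_ker]
  exact Iff.rfl

omit [IsLocalRing A] in
theorem repr_mem_of_mem_smul_top {ι : Type*} (b : Basis ι A V) (I : Ideal A) {v : V}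
    (hv : v ∈ I • (⊤ : Submodule A V)) (i : ι) : b.repr v i ∈ I := by
  refine Submodule.smul_induction_on hv (fun r hr m _ => ?_) (fun x y hx hy => ?_)
  · rw [map_smul, Finsupp.smul_apply, smul_eq_mul]
    exact I.mul_mem_right _ hr
  · rw [map_add, Finsupp.add_apply]
    exact I.add_mem hx hy

variable [Module.Free A V] [Module.Finite A V]

/-- an endomorphism of a finite free module which vanishes residually lies in `𝔪 • End`. -/
theorem mem_smul_top_of_baseChange_eq_zero (Z : End A V)
    (hZ : Z.baseChange (ResidueField A) = 0) :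
    Z ∈ maximalIdeal A • (⊤ : Submodule A (End A V)) := by
  classical
  let b := Module.Free.chooseBasis A V
  have hent : ∀ i j, LinearMap.toMatrix b b Z i j ∈ maximalIdeal A := by
    intro i j
    have h1 : Z (b j) ∈ maximalIdeal A • (⊤ : Submodule A V) := by
      rw [← tmul_eq_zero_iff]
      have := LinearMap.congr_fun hZ ((1 : ResidueField A) ⊗ₜ[A] b j)
      rwa [LinearMap.baseChange_tmul, LinearMap.zero_apply] at this
    rw [LinearMap.toMatrix_apply]
    exact repr_mem_of_mem_smul_top b _ h1 i
  have hZ' : Z = Matrix.toLin b b (LinearMap.toMatrix b b Z) := (Matrix.toLin_toMatrix b b Z).symm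
  rw [hZ', Matrix.matrix_eq_sum_single (LinearMap.toMatrix b b Z), map_sum]
  refine Submodule.sum_mem _ fun i _ => ?_
  rw [map_sum]
  refine Submodule.sum_mem _ fun j _ => ?_
  have : Matrix.single i j (LinearMap.toMatrix b b Z i j) =
      (LinearMap.toMatrix b b Z i j) • Matrix.single i j (1 : A) := by
    rw [Matrix.smul_single, smul_eq_mul, mul_one]
  rw [this, map_smul]
  exact Submodule.smul_mem_smul (hent i j) Submodule.mem_top

variable {G : Type*} [Monoid G] (ρ : G →* End A V)

/-- **Nakayama**: if the residual representation spans the residual endomorphism algebra, then the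
representation spans `End A V`. -/
theorem span_range_eq_top
    (hspan : Submodule.span (ResidueField A)
      (Set.range fun g => (ρ g).baseChange (ResidueField A)) = ⊤) :
    Submodule.span A (Set.range ρ) = ⊤ := by
  rw [eq_top_iff]
  have hfg : (⊤ : Submodule A (End A V)).FG := Module.Finite.fg_top
  refine Submodule.le_of_le_smul_of_le_jacobson_bot hfg
    (IsLocalRing.maximalIdeal_le_jacobson ⊥) ?_
  intro Y _
  have hY : Y.baseChange (ResidueField A) ∈ Submodule.span (ResidueField A)
      (Set.range fun g => (ρ g).baseChange (ResidueField A)) := by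
    rw [hspan]; exact Submodule.mem_top
  obtain ⟨X, hX, hXY⟩ := Fermat.Agent.ES.ALG31.TraceRigid13.exists_lift_of_mem_span ρ hY
  have hZ : (Y - X).baseChange (ResidueField A) = 0 := by
    rw [LinearMap.baseChange_sub, hXY]
    exact sub_self (LinearMap.baseChange (ResidueField A) Y)
  have h2 := mem_smul_top_of_baseChange_eq_zero (Y - X) hZ
  have : Y = X + (Y - X) := by abel
  rw [this]
  exact Submodule.add_mem_sup hX h2

/-- the span statement for a residually absolutely irreducible `GaloisRepAdic`. -/
theorem span_range_eq_top_of_absIrr {T : Type} [CommRing T] [IsLocalRing T] (ρ : GaloisRepAdic T)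
    (habs : ρ.residual.IsAbsolutelyIrreducible) :
    Submodule.span T (Set.range ρ.ρ) = ⊤ :=
  span_range_eq_top ρ.ρ (Fermat.Agent.ES.ALG31.TraceRigid13.residual_span_eq_top ρ habs)

end Fermat.Agent.Flat83.SpanTop
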