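/-
helper83, conditional library "S19 ⇒ S32", final wiring:

  `isFlatAt_of_s19 : Flat44.S19FlatTarget → H.ρ.IsFlatAt p`

in the literal context of the frozen statement S32.  Ingredients:
* `Flat83.EigenEmbed.exists_embedding` (Cayley–Hamilton on the Hecke eigenspace of `T ⊗ T_p J₀(N)`,
  faithfulness, Carayol / Boston–Lenstra–Ribet) instantiated with the `p`-adic Hecke action
  `ES/K/HeckeTate26.evJ` on the Tate module, Eichler–Shimura (`rhoT_frobenius`), the cyclotomic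
  character, Chebotarev and continuity exactly as in `ES/ALG31/S31Core12`;
* `T1/S32Asm8.isFlatAt_of_embedding` (helper8): lattice step + `Flat44.HasFlatModel.subquotient`.
-/
import Mathlib
import Fermat.Prelude.Def_CuspForm_HeckeGaloisRepDatum
import Fermat.Agent.ES.ALG31.S31Core12
import Fermat.Agent.ES.K.HeckeTate26
import Fermat.Agent.ES.J.S30Final8
import Fermat.Agent.ES.J.PadicAlg8
import Fermat.Agent.ES.PET.ReducedFinal17
import Fermat.Agent.S22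
import Fermat.Agent.Flat83.EigenEmbed
import Fermat.Agent.Flat83.SpanTop
import Fermat.Agent.Flat83.PadicFinite
import Fermat.Agent.T1.S32Asm8
import Fermat.Agent.Flat44.S19Target

set_option autoImplicit false
set_option linter.unusedSectionVars false
set_option linter.overlappingInstances false
set_option linter.style.haveILetI false
set_option synthInstance.maxHeartbeats 400000
set_option maxHeartbeats 1000000

open Polynomial AlgebraicCurve ModularCurve CuspForm TensorProduct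

noncomputable section

namespace Fermat.Agent.Flat83.S32Main

open Fermat.Agent.ES.ALG.RelDense9 Fermat.Agent.ES.ALG31.TraceInv12
  Fermat.Agent.ES.J.TateJZero13 Fermat.Agent.ES.J.CycloChar8
  Fermat.Agent.ES.K.HeckeTate26

local notation "Qb" => AlgebraicClosure ℚ
local notation "GQ" => (AlgebraicClosure ℚ ≃ₐ[ℚ] AlgebraicClosure ℚ)

variable {p : ℕ} {N : ℕ} [NeZero N] {S : Finset ℕ}
  {𝒪 : Type} [CommRing 𝒪] [IsDomain 𝒪] [IsDiscreteValuationRing 𝒪]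
  [IsAdicComplete (IsLocalRing.maximalIdeal 𝒪) 𝒪]
  {θ : CuspForm.heckeAlgebra N 2 (↑S : Set ℕ) →+* IsLocalRing.ResidueField 𝒪}
  {T : Type} [CommRing T] [IsLocalRing T] [IsNoetherianRing T]
  [IsAdicComplete (IsLocalRing.maximalIdeal T) T] [Algebra 𝒪 T] [IsLocalHom (algebraMap 𝒪 T)]
  [Module.Finite 𝒪 T] [Module.Free 𝒪 T]

/-- `2` is a unit of a local ring whose maximal ideal contains an odd prime. -/
theorem isUnit_two {A : Type*} [CommRing A] [IsLocalRing A] {p : ℕ} (hp : p.Prime) (hp2 : p ≠ 2)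
    (hpA : (p : A) ∈ IsLocalRing.maximalIdeal A) : IsUnit (2 : A) := by
  by_contra h2
  have h2m : (2 : A) ∈ IsLocalRing.maximalIdeal A := (IsLocalRing.mem_maximalIdeal _).mpr h2
  have hodd : Odd p := hp.odd_of_ne_two hp2
  obtain ⟨k, hk⟩ := hodd
  have h1 : (1 : A) = (p : A) - 2 * (k : A) := by
    rw [hk]
    push_cast
    ring
  have : (1 : A) ∈ IsLocalRing.maximalIdeal A := by
    rw [h1]
    exact Ideal.sub_mem _ hpA (Ideal.mul_mem_right _ _ h2m)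
  exact (IsLocalRing.maximalIdeal.isMaximal A).ne_top ((Ideal.eq_top_iff_one _).mpr this)

/-- the residue field of `T` is finite. -/
theorem finite_residueField [Finite (IsLocalRing.ResidueField 𝒪)]
    (H : CuspForm.HeckeGaloisRepDatum N (↑S : Set ℕ) 𝒪 θ T) :
    Finite (IsLocalRing.ResidueField T) := by
  have hsurj : Function.Surjective (IsLocalRing.ResidueField.map (algebraMap 𝒪 T)) := by
    intro y
    obtain ⟨x, hx⟩ := H.residue_surjective y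
    exact ⟨IsLocalRing.residue 𝒪 x, hx⟩
  exact Finite.of_surjective _ hsurj

/-- **S32 from the intrinsic form of S19.** -/
theorem isFlatAt_of_s19 (h19 : Fermat.Agent.Flat44.S19FlatTarget)
    [Finite (IsLocalRing.ResidueField 𝒪)] [CharZero 𝒪]
    (hp : p.Prime) (hp2 : p ≠ 2) (hp𝒪 : (p : 𝒪) ∈ IsLocalRing.maximalIdeal 𝒪) (hpN : ¬ p ∣ N)
    (hpS : p ∈ S) (hNS : ∀ q : ℕ, q.Prime → q ∣ N → q ∈ S)
    (H : CuspForm.HeckeGaloisRepDatum N (↑S : Set ℕ) 𝒪 θ T) :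
    H.ρ.IsFlatAt p := by
  classical
  haveI : Fact p.Prime := ⟨hp⟩
  have hpT : (p : T) ∈ IsLocalRing.maximalIdeal T :=
    Fermat.Agent.ES.ALG31.S31Core12.natCast_mem_maximalIdeal hp𝒪
  -- the `ℤ_p`-algebra structure of `T`
  letI algT : Algebra ℤ_[p] T := (Fermat.Agent.ES.J.PadicAlg8.padicToLocal p hpT).toAlgebra
  obtain ⟨hTfin, hTfree⟩ := Fermat.Agent.Flat83.PadicFinite.finite_free p 𝒪 T hpT
  haveI := hTfin
  haveI := hTfree
  -- the Hecke algebra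
  have hS : ∀ q : ℕ, q.Prime → q ∣ N → q ∈ (↑S : Set ℕ) := fun q hq hqN => by
    exact_mod_cast hNS q hq hqN
  haveI : Module.Finite ℤ (heckeAlgebra N 2 (↑S : Set ℕ)) := Fermat.Agent.S22.result N 2 _
  haveI : Module.Free ℤ (heckeAlgebra N 2 (↑S : Set ℕ)) := inferInstance
  haveI : IsReduced (heckeAlgebra N 2 (↑S : Set ℕ)) :=
    Fermat.Agent.ES.PET.ReducedFinal17.isReduced_heckeAlgebra N _ hS
  -- the Tate module
  have hfin : {y : JZero N | p • y = 0}.Finite := Fermat.Agent.ES.J.S30Final8.k1 p N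
  haveI : Finite {y : JZero N // p • y = 0} := hfin.to_subtype
  haveI : Module.Finite ℤ_[p] (TJ p N) := (finite_free hfin).1
  -- `V` as a `ℤ_p`-module
  letI : Module ℤ_[p] H.ρ.V := Module.compHom H.ρ.V (algebraMap ℤ_[p] T)
  haveI : IsScalarTower ℤ_[p] T H.ρ.V := IsScalarTower.of_algebraMap_smul fun _ _ => rfl
  -- the Hecke action on the Tate module
  let a : ↥(heckeAlgebra N 2 (↑S : Set ℕ)) →+* Module.End ℤ_[p] (TJ p N) :=
    ((evJ (p := p) (↑S : Set ℕ) hS : Bp p N (↑S : Set ℕ) →ₐ[ℤ_[p]] _) : _ →+* _).comp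
      (Algebra.TensorProduct.includeRight :
        ↥(heckeAlgebra N 2 (↑S : Set ℕ)) →ₐ[ℤ] Bp p N (↑S : Set ℕ)).toRingHom
  have ha : ∀ r, a r = evJ (p := p) (↑S : Set ℕ) hS ((1 : ℤ_[p]) ⊗ₜ[ℤ] r) := fun r => rfl
  have hne_p : ∀ ℓ : ℕ, ℓ ∉ (↑S : Set ℕ) → ℓ ≠ p := fun ℓ hℓS h => hℓS (by exact_mod_cast h ▸ hpS)
  -- the Frobenius data
  let Φ : GQ → ℕ → ↥(heckeAlgebra N 2 (↑S : Set ℕ)) → Prop := fun φ ℓ t =>
    ∃ (hℓ : ℓ.Prime) (hℓN : ¬ ℓ ∣ N) (hℓS : ℓ ∉ (↑S : Set ℕ)) (A : ValuationSubring Qb),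
      A.LiesOverPrime ℓ ∧ A.IsFrobeniusAt φ ℓ ∧ t = heckeAlgebra.T hℓ hℓN hℓS
  have hΦM : ∀ φ ℓ t, Φ φ ℓ t → a t = rhoT p N φ + (ℓ : ℤ_[p]) • rhoT p N φ⁻¹ := by
    rintro φ ℓ t ⟨hℓ, hℓN, hℓS, A, hA, hφ, rfl⟩
    have h1 := rhoT_frobenius (p := p) (N := N) hℓ hℓN (hne_p ℓ hℓS) hA hφ
    have hFF' : rhoT p N φ * rhoT p N φ⁻¹ = 1 := by rw [← map_mul, mul_inv_cancel, map_one]
    have h2 : tT p N ⟨ℓ, hℓ⟩ = rhoT p N φ + (ℓ : ℤ_[p]) • rhoT p N φ⁻¹ := by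
      have := congrArg (fun X => X * rhoT p N φ⁻¹) h1
      simp only [add_mul, sub_mul, smul_mul_assoc, mul_assoc, hFF', mul_one, one_mul,
        zero_mul] at this
      rw [sub_add_eq_add_sub, sub_eq_zero] at this
      exact this.symm
    rw [ha, evJ_T, h2]
  have hΦd : ∀ φ ℓ t, Φ φ ℓ t → ((cyclo p φ : ℤ_[p]ˣ) : ℤ_[p]) = ℓ := by
    rintro φ ℓ t ⟨hℓ, hℓN, hℓS, A, hA, hφ, rfl⟩
    exact cyclo_of_isFrobeniusAt p hℓ (hne_p ℓ hℓS) A hA hφ
  have hΦV : ∀ φ ℓ t, Φ φ ℓ t →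
      (H.ρ.ρ φ).charpoly = X ^ 2 - C (H.π t) * X + C (ℓ : T) := by
    rintro φ ℓ t ⟨hℓ, hℓN, hℓS, A, hA, hφ, rfl⟩
    exact H.charpoly_frob ℓ hℓ hℓN hℓS A hA φ hφ
  have hdense : ∀ (n m : ℕ) (g : GQ), ∃ φ ℓ t, ∃ j : ℕ, Φ φ ℓ t ∧
      EndCongr (IsLocalRing.maximalIdeal T ^ n) (H.ρ.ρ (g⁻¹ * φ ^ j)) 1 ∧
      EndCongr (Ideal.span {(p : ℤ_[p]) ^ m}) (rhoT p N (g⁻¹ * φ ^ j)) 1 ∧
      ((cyclo p (g⁻¹ * φ ^ j) : ℤ_[p]ˣ) : ℤ_[p]) - 1 ∈ Ideal.span {(p : ℤ_[p]) ^ m} := by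
    intro n m g
    obtain ⟨L₁, hL₁, h1⟩ := H.ρ.isAdicContinuous n
    obtain ⟨L₂, hL₂, h2⟩ := rhoT_continuous (p := p) (N := N) hfin m
    obtain ⟨L₃, hL₃, h3⟩ := cyclo_sub_one_mem p m
    have := hL₁
    have := hL₂
    have := hL₃
    obtain ⟨ℓ, A, φ, j, hℓ, hℓS, hA, hφ, hj⟩ :=
      Fermat.Agent.ES.GAL.ChebQbar23.exists_frobenius_inv_mul_pow_fixes (L₁ ⊔ L₂ ⊔ L₃) g S
    have hℓS' : ℓ ∉ (↑S : Set ℕ) := by simpa using hℓS
    have hℓN : ¬ ℓ ∣ N := fun hdvd => hℓS (hNS ℓ hℓ hdvd)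
    refine ⟨φ, ℓ, heckeAlgebra.T hℓ hℓN hℓS', j, ⟨hℓ, hℓN, hℓS', A, hA, hφ, rfl⟩, ?_, ?_, ?_⟩
    · intro v
      rw [Module.End.one_apply]
      exact h1 _ (fun x hx => hj x (le_sup_left (a := L₁ ⊔ L₂) (b := L₃)
        (le_sup_left (a := L₁) (b := L₂) hx))) v
    · intro v
      rw [Module.End.one_apply]
      obtain ⟨y, hy⟩ := h2 _ (fun x hx => hj x (le_sup_left (a := L₁ ⊔ L₂) (b := L₃)
        (le_sup_right (a := L₁) (b := L₂) hx))) v
      rw [hy]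
      exact Submodule.smul_mem_smul (Ideal.mem_span_singleton_self _) Submodule.mem_top
    · exact h3 _ (fun x hx => hj x (le_sup_right (a := L₁ ⊔ L₂) (b := L₃) hx))
  -- Hecke commutes with Galois
  have hcomm : ∀ r g, Commute (a r) (rhoT p N g) := fun r g =>
    (commute_rhoT_evJ (p := p) (↑S : Set ℕ) hS g ((1 : ℤ_[p]) ⊗ₜ[ℤ] r)).symm
  -- relations among the `a r` hold among the `π r`
  have hker : ∀ (n : ℕ) (c : Fin n → ℤ_[p]) (r : Fin n → ↥(heckeAlgebra N 2 (↑S : Set ℕ))),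
      ∑ i, c i • a (r i) = 0 → ∑ i, c i • H.π (r i) = 0 := by
    intro n c r hsum
    have h1 : evJ (p := p) (↑S : Set ℕ) hS (∑ i, c i ⊗ₜ[ℤ] r i) = 0 := by
      rw [map_sum, ← hsum]
      refine Finset.sum_congr rfl fun i _ => ?_
      rw [ha, ← map_smul, TensorProduct.smul_tmul', smul_eq_mul, mul_one]
    have h2 : ∑ i, c i ⊗ₜ[ℤ] r i = (0 : Bp p N (↑S : Set ℕ)) :=
      evJ_injective (p := p) (↑S : Set ℕ) hS (by rw [h1, map_zero])
    let πlin : Bp p N (↑S : Set ℕ) →ₗ[ℤ_[p]] T :=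
      LinearMap.liftBaseChange ℤ_[p] (H.π.toAddMonoidHom.toIntLinearMap)
    have h3 := congrArg πlin h2
    rw [map_sum, map_zero] at h3
    rw [← h3]
    refine Finset.sum_congr rfl fun i _ => ?_
    rw [LinearMap.liftBaseChange_tmul]
    rfl
  have htwo : IsUnit (2 : T) := isUnit_two hp hp2 hpT
  have hspan : Submodule.span T (Set.range H.ρ.ρ) = ⊤ :=
    Fermat.Agent.Flat83.SpanTop.span_range_eq_top_of_absIrr H.ρ H.residual_absIrr
  obtain ⟨κ, Ψ, hinj, heq⟩ := Fermat.Agent.Flat83.EigenEmbed.exists_embedding a (rhoT p N)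
    (cyclo p) hpT H.π H.ρ.finrank_eq H.ρ.ρ Φ hΦM hΦd hΦV hdense hcomm hker htwo hspan
  -- the S19 input
  have hJ : ∀ n : ℕ, Fermat.Agent.Flat44.HasFlatModel p
      ↥(Submodule.torsionBy ℤ (JZero N) ((p : ℤ) ^ n))
      (Fermat.Agent.T1.S32Asm8.torAct (p := p) (J := JZero N) n) := fun n => h19 N p hpN n
  exact Fermat.Agent.T1.S32Asm8.isFlatAt_of_embedding (J := JZero N) H.ρ (finite_residueField H)
    hpT hJ Ψ.toAddMonoidHom (fun c v => map_smul Ψ c v) hinj heq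

/-- the literal statement of the frozen S19, as a hypothesis. -/
def S19Stmt : Prop :=
  ∀ (p : ℕ) [NeZero p] (ℓ : ℕ) [Fact ℓ.Prime] (_hℓp : ¬ ℓ ∣ p) (k : ℕ),
    ∃ (H : Type) (_ : CommRing H) (_ : HopfAlgebra (GaloisRep.ratLocalizedAt ℓ) H),
      Module.Finite (GaloisRep.ratLocalizedAt ℓ) H ∧ Module.Flat (GaloisRep.ratLocalizedAt ℓ) H ∧
      Coalgebra.IsCocomm (GaloisRep.ratLocalizedAt ℓ) H ∧
      ∃ e : WithConv (H →ₐ[GaloisRep.ratLocalizedAt ℓ] AlgebraicClosure ℚ) ≃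
          ↥(Submodule.torsionBy ℤ (JZero p) ((ℓ : ℤ) ^ k)),
        (∀ f g, e (f * g) = e f + e g) ∧
        ∀ (σ : AlgebraicClosure ℚ ≃ₐ[ℚ] AlgebraicClosure ℚ)
          (f g : WithConv (H →ₐ[GaloisRep.ratLocalizedAt ℓ] AlgebraicClosure ℚ)),
          (∀ h : H, g h = σ (f h)) → ((e g : JZero p)) = σ • (e f : JZero p)

/-- the frozen S19 gives the intrinsic target. -/
theorem flatTarget_of_s19 (h : S19Stmt) : Fermat.Agent.Flat44.S19FlatTarget := by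
  intro N _ ℓ _ hℓ k
  obtain ⟨H, i1, i2, hfin, hflat, hcocomm, e, hmul, hgal⟩ := h N ℓ hℓ k
  exact ⟨H, i1, i2, hfin, hflat, hcocomm, e, hmul,
    fun σ f g hfg => Subtype.ext (hgal σ f g hfg)⟩

/-- **S32 from the frozen S19**, in the literal shape of the frozen S32.
`Fermat/Agent/S32.lean` is then
`theorem result ... := Fermat.Agent.Flat83.S32Main.s32_of_s19
    (fun p _ ℓ _ hℓp k => Fermat.Agent.S19.result p ℓ hℓp k) hp hp2 hp𝒪 hpN hpS hNS H`. -/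
theorem s32_of_s19 (h19 : S19Stmt)
    [Finite (IsLocalRing.ResidueField 𝒪)] [CharZero 𝒪]
    (hp : p.Prime) (hp2 : p ≠ 2) (hp𝒪 : (p : 𝒪) ∈ IsLocalRing.maximalIdeal 𝒪) (hpN : ¬ p ∣ N)
    (hpS : p ∈ S) (hNS : ∀ q : ℕ, q.Prime → q ∣ N → q ∈ S)
    (H : CuspForm.HeckeGaloisRepDatum N (↑S : Set ℕ) 𝒪 θ T) :
    H.ρ.IsFlatAt p :=
  isFlatAt_of_s19 (flatTarget_of_s19 h19) hp hp2 hp𝒪 hpN hpS hNS H

end Fermat.Agent.Flat83.S32Main
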